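import Fermat.Agent.S59.H405.GTW
import Fermat.Agent.S59.Arch.SpecRT
import Fermat.Agent.S59.H127.LinAlg2

/-!
# S59 / cell GTW (helper405): `Arch.CurveResidualHypStatement`

The standing hypotheses `Arch.ResidualHyp` (= those of the frozen S56, plus the description of
the minimal set) hold for `E[p] ⊗ k`, `p ∈ {3, 5}`, `W` semistable with irreducible `E[p]`:

* `habs`   : odd + irreducible over `𝔽_p` implies irreducible over every extension
             (`irreducible_baseChange_of_odd`);
* `hdet`   : Weil pairing at level `p` (`H667.det_rhoFin_eq_natCast'`) and base change;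
* `hsplit` : characteristic polynomials are defined over `𝔽_p`, quadratics split in `k`;
* `hTW`    : `gtw` (`GTW.lean`);
* `hunip`  : `(σ - 1)² = 0` on inertia at `q ≠ p` (`unip_torsion`).
-/

set_option autoImplicit false

namespace Fermat.Agent.S59.H405

open Polynomial IsLocalRing
open WeierstrassCurve WeierstrassCurve.Affine WeierstrassCurve.Affine.Point
open scoped WeierstrassCurve.Affine TensorProduct
open Fermat.Agent.S53 Matrix
open Fermat.Agent.S59.H667

section AbsIrr

/-- an odd irreducible residual representation over `F` (`2 ≠ 0`) stays irreducible after every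
base change -/
theorem irreducible_baseChange_of_odd {F : Type} [Field F] (h2 : (2 : F) ≠ 0)
    (ρ₀ : ResidualGaloisRep F) (hodd : ρ₀.IsOdd) (hirr : ρ₀.IsIrreducible)
    (k : Type) [Field k] (ι : F →+* k) (K : Type) [Field K] [Algebra k K] :
    ((ρ₀.baseChangeAlong ι).baseChange K).IsIrreducible := by
  intro V hV
  obtain ⟨rb, hrb, ⟨e₀⟩⟩ := exists_toRes ρ₀
  obtain ⟨e₁⟩ := baseChangeAlong_toRes ι rb hrb
  have E₁ : ResidualGaloisRep.Equiv (ρ₀.baseChangeAlong ι)
      (toRes (mapRep ι rb) (factors_mapRep ι hrb)) :=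
    (e₀.baseChangeAlong ι).trans e₁
  obtain ⟨e₃⟩ := baseChange_toRes K (mapRep ι rb) (factors_mapRep ι hrb)
  have E : ResidualGaloisRep.Equiv ((ρ₀.baseChangeAlong ι).baseChange K)
      (toRes (mapRep (algebraMap k K) (mapRep ι rb))
        (factors_mapRep (algebraMap k K) (factors_mapRep ι hrb))) :=
    (resEquivBaseChange K E₁).trans e₃
  set φ : F →+* K := (algebraMap k K).comp ι with hφ
  let f : ((ρ₀.baseChangeAlong ι).baseChange K).V ≃ₗ[K] (Fin 2 → K) := E.toLinearEquiv
  have hact : ∀ (σ : S53.GQ) (x : ((ρ₀.baseChangeAlong ι).baseChange K).V),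
      f (((ρ₀.baseChangeAlong ι).baseChange K).ρ σ x) = ((rb σ).map φ) *ᵥ (f x) := by
    intro σ x
    exact E.map_apply σ x
  by_contra hcon
  rw [not_or] at hcon
  obtain ⟨hbot, htop⟩ := hcon
  let W : Submodule K (Fin 2 → K) :=
    V.map (f : ((ρ₀.baseChangeAlong ι).baseChange K).V →ₗ[K] (Fin 2 → K))
  have hWbot : W ≠ ⊥ := by
    intro h
    apply hbot
    rw [Submodule.map_eq_bot_iff] at h
    exact h
  have hWtop : W ≠ ⊤ := by
    intro h
    apply htop
    rw [eq_top_iff]
    intro x _
    have hx : f x ∈ W := by rw [h]; exact Submodule.mem_top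
    obtain ⟨y, hy, hyx⟩ := hx
    have : y = x := f.injective hyx
    rwa [← this]
  have hWstab : ∀ σ : S53.GQ, ∀ w ∈ W, ((rb σ).map φ) *ᵥ w ∈ W := by
    rintro σ w ⟨x, hx, rfl⟩
    refine ⟨((ρ₀.baseChangeAlong ι).baseChange K).ρ σ x, hV σ x hx, ?_⟩
    exact hact σ x
  have h1 : 0 < Module.finrank K W := by
    haveI : Nontrivial W := (Submodule.nontrivial_iff_ne_bot).mpr hWbot
    exact Module.finrank_pos
  have h2' : Module.finrank K W < Module.finrank K (Fin 2 → K) := Submodule.finrank_lt hWtop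
  rw [Module.finrank_fin_fun] at h2'
  have h3 : Module.finrank K W = 1 := by omega
  obtain ⟨w, hw, hall⟩ := finrank_eq_one_iff'.mp h3
  have hv0 : (w : Fin 2 → K) ≠ 0 := fun h0 => hw (Subtype.ext h0)
  have hline : ∀ σ : S53.GQ, IsEig ((rb σ).map φ) (w : Fin 2 → K) := by
    intro σ
    obtain ⟨c, hc⟩ := hall ⟨((rb σ).map φ) *ᵥ (w : Fin 2 → K), hWstab σ _ w.2⟩
    exact ⟨c, (congrArg Subtype.val hc).symm⟩
  obtain ⟨c, hcc, hc1⟩ := exists_involution_Qbar
  have hdet : (rb c).det = -1 := by
    rw [det_of_equiv e₀ c]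
    exact hodd c hcc hc1
  have hirr' : ¬ HasLine rb := by
    rintro ⟨v, hv, hE⟩
    have h4 : (toRes rb hrb).IsIrreducible := isIrreducible_of_equiv e₀ hirr
    exact (Fermat.Agent.S59.G4.H307.toRes_isIrreducible_iff rb hrb).mp h4 ⟨v, hv, fun σ => hE σ⟩
  exact no_line_of_odd φ rb h2 c hcc hdet hirr' ⟨(w : Fin 2 → K), hv0, fun σ => hline σ⟩

end AbsIrr

section Det

variable (W : WeierstrassCurve ℤ) (hΔ : W.Δ ≠ 0) (p : ℕ) [Fact p.Prime]
  (hirr : W.ModRepIsIrreducible p)

include hΔ hirr in
/-- the determinant on `E[m]`, `m = p ^ 1`, is the cyclotomic character -/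
theorem det_level_one_aux (σ : GQE) (a : ℕ) (m : ℕ) (hm : m = p ^ 1)
    (ha : ∀ μ : QbE, μ ^ m = 1 → σ μ = μ ^ a) :
    LinearMap.det (rhoFin W m σ) = (a : ZMod m) := by
  subst hm
  haveI := isElliptic_of_Δ_ne_zero W hΔ
  obtain ⟨cb⟩ := Fermat.Agent.S59.H127.nonempty_compatBasis_point
    ((W.map (Int.castRingHom ℚ))⁄(AlgebraicClosure ℚ)) p
  exact det_rhoFin_eq_natCast' W hΔ p hirr cb 1 σ a ha

end Det

/-- **Cell GTW.** -/
theorem curveResidualHyp : Fermat.Agent.S59.Arch.CurveResidualHypStatement := by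
  intro p _ hp W hΔ hW hirr hcard hker 𝒪 _ _ _ _ _ _ hp𝒪 ι hι Smin hSmin
  have hpp : p.Prime := Fact.out
  have hp2 : p ≠ 2 := by rcases hp with h | h <;> omega
  have h2 : (2 : ZMod p) ≠ 0 := by
    intro h
    have h' : ((2 : ℕ) : ZMod p) = 0 := by exact_mod_cast h
    rw [ZMod.natCast_eq_zero_iff] at h'
    exact hp2 ((Nat.prime_dvd_prime_iff_eq hpp Nat.prime_two).mp h')
  have hodd : ((W.map (Int.castRingHom ℚ)).residualGaloisRepOf p hcard hker).IsOdd := by
    intro c hc hc1
    exact det_involution_aux W hΔ p hirr hp2 c hc hc1 p (pow_one p).symm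
  have hirr₀ : ((W.map (Int.castRingHom ℚ)).residualGaloisRepOf p hcard hker).IsIrreducible := by
    intro N hN
    exact hirr.2 N (fun σ x hx => hN σ x hx)
  have hpk : ((p : ℕ) : ResidueField 𝒪) = 0 := by
    rw [← map_natCast ι p, ZMod.natCast_self, _root_.map_zero]
  letI : Algebra (ZMod p) (ResidueField 𝒪) := ι.toAlgebra
  have hunip₀ : ∀ q : ℕ, q.Prime → q ≠ p → ∀ A : ValuationSubring (AlgebraicClosure ℚ),
      A.LiesOverPrime q → ∀ σ ∈ A.inertiaSubgroupIn ℚ,
      LinearMap.charpoly
        (((W.map (Int.castRingHom ℚ)).residualGaloisRepOf p hcard hker).ρ σ) = (X - 1) ^ 2 := by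
    intro q hq hqp A hA σ hσ
    have h := unip_torsion W hΔ hW hpp hq hqp A hA σ hσ
    apply Fermat.Agent.S59.H127.charpoly_eq_of_sub_one_sq
      ((W.map (Int.castRingHom ℚ)).residualGaloisRepOf p hcard hker).finrank_eq
    have h' : (((W.map (Int.castRingHom ℚ)).residualGaloisRepOf p hcard hker).ρ σ - 1) *
        (((W.map (Int.castRingHom ℚ)).residualGaloisRepOf p hcard hker).ρ σ - 1) = 0 := h
    rw [← h', two_smul]
    noncomm_ring
  refine
    { hp2 := hp2
      hp𝒪 := hp𝒪
      habs := ?_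
      hdet := ?_
      hsplit := ?_
      hTW := ?_
      hpSmin := hSmin.1
      hSmin := hSmin.2.1
      hmin := hSmin.2.2
      hunip := ?_ }
  · -- absolutely irreducible
    exact irreducible_baseChange_of_odd h2 _ hodd hirr₀ (ResidueField 𝒪) ι
      (AlgebraicClosure (ResidueField 𝒪))
  · -- determinant
    refine ⟨?_, fun n σ a ha => ?_⟩
    · rw [hpk]
      exact Submodule.zero_mem _
    · rcases Nat.eq_zero_or_pos n with rfl | hn
      · rw [pow_zero, Nat.cast_one, Ideal.span_singleton_one]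
        exact Submodule.mem_top
      · have ha' : ∀ μ : QbE, μ ^ p = 1 → σ μ = μ ^ a := by
          intro μ hμ
          apply ha
          obtain ⟨m, rfl⟩ : ∃ m, n = m + 1 := ⟨n - 1, by omega⟩
          rw [pow_succ', pow_mul, hμ, one_pow]
        have hd := det_level_one_aux W hΔ p hirr σ a p (pow_one p).symm ha'
        have hd' : LinearMap.det
            (((W.map (Int.castRingHom ℚ)).residualGaloisRepOf p hcard hker).ρ σ)
            = (a : ZMod p) := hd
        have hbc : LinearMap.det ((GaloisRepAdic.ofResidualGaloisRep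
            (Fermat.Agent.S59.Arch.curveResidual p W hcard hker ι)).ρ σ)
            = algebraMap (ZMod p) (ResidueField 𝒪) (LinearMap.det
              (((W.map (Int.castRingHom ℚ)).residualGaloisRepOf p hcard hker).ρ σ)) :=
          LinearMap.det_baseChange
            (((W.map (Int.castRingHom ℚ)).residualGaloisRepOf p hcard hker).ρ σ)
        rw [hbc, hd', map_natCast, sub_self]
        exact Submodule.zero_mem _
  · -- splitting
    intro σ
    have hbc : LinearMap.charpoly ((Fermat.Agent.S59.Arch.curveResidual p W hcard hker ι).ρ σ)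
        = (LinearMap.charpoly
            (((W.map (Int.castRingHom ℚ)).residualGaloisRepOf p hcard hker).ρ σ)).map
          (algebraMap (ZMod p) (ResidueField 𝒪)) :=
      LinearMap.charpoly_baseChange
        (((W.map (Int.castRingHom ℚ)).residualGaloisRepOf p hcard hker).ρ σ) (ResidueField 𝒪)
    rw [hbc]
    apply hι
    · exact LinearMap.charpoly_monic _
    · rw [LinearMap.charpoly_natDegree]
      exact ((W.map (Int.castRingHom ℚ)).residualGaloisRepOf p hcard hker).finrank_eq
  · -- hTW
    intro K _ _ G hG V hV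
    exact gtw p hp W hΔ hW hirr hcard hker (ResidueField 𝒪) ι
      (Fermat.Agent.S59.Arch.curveResidual p W hcard hker ι)
      ⟨ResidualGaloisRep.Equiv.refl _⟩ K G hG V hV
  · -- unipotent inertia
    intro q _ hq hqp P hP σ hσ
    have hbc : LinearMap.charpoly ((GaloisRepAdic.ofResidualGaloisRep
        (Fermat.Agent.S59.Arch.curveResidual p W hcard hker ι)).ρ σ)
        = (LinearMap.charpoly
            (((W.map (Int.castRingHom ℚ)).residualGaloisRepOf p hcard hker).ρ σ)).map
          (algebraMap (ZMod p) (ResidueField 𝒪)) :=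
      LinearMap.charpoly_baseChange
        (((W.map (Int.castRingHom ℚ)).residualGaloisRepOf p hcard hker).ρ σ) (ResidueField 𝒪)
    rw [hbc, hunip₀ q hq hqp P hP σ hσ]
    simp

end Fermat.Agent.S59.H405
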