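import Fermat.Agent.S59.H405.TWRes
import Fermat.Agent.S59.H667.E23Final
import Fermat.Agent.S59.H240.UnipInput
import Fermat.Agent.S59.H899.Unram

/-!
# S59 / G-TW (helper405): the hypothesis `hTW` of S56 for semistable elliptic curves

`gtw : GTWStatement` : for `p ∈ {3, 5}`, a semistable integral Weierstrass model `W` with
`Δ ≠ 0` and irreducible `E[p]`, every residual representation equivalent to a base change of
`E[p]` stays irreducible over every extension field on every subgroup of index `2` of `G_ℚ`.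
This is exactly the hypothesis `hTW` of the frozen statement S56 for `ρ̄ = E[p] ⊗ k`.

The proof does not use the shape of `E[p]` at `p`: see `TWRes.lean`, `TWGroup.lean`.
-/

set_option autoImplicit false

namespace Fermat.Agent.S59.H405

open WeierstrassCurve WeierstrassCurve.Affine WeierstrassCurve.Affine.Point
open scoped WeierstrassCurve.Affine
open Fermat.Agent.S59.H667

/-- **G-TW**: the hypothesis `hTW` of S56 holds for `E[p] ⊗ k`, `p ∈ {3, 5}`, `W` semistable
with irreducible `E[p]`. -/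
def GTWStatement : Prop :=
  ∀ (p : ℕ) [Fact p.Prime] (_hp : p = 3 ∨ p = 5) (W : WeierstrassCurve ℤ) (_hΔ : W.Δ ≠ 0)
    (_hW : W.IsSemistableModel) (_hirr : W.ModRepIsIrreducible p)
    (hcard : Nat.card (Submodule.torsionBy ℤ
      ((W.map (Int.castRingHom ℚ))⁄(AlgebraicClosure ℚ)).Point p) = p ^ 2)
    (hker : GaloisFactorsThroughFiniteLevel
      (WeierstrassCurve.Affine.Point.galoisRepModuleEnd (K := AlgebraicClosure ℚ) ℚ
        (W.map (Int.castRingHom ℚ)) p))
    (k : Type) [Field k] (ι : ZMod p →+* k) (ρbar : ResidualGaloisRep k)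
    (_hρ : ρbar.IsEquiv
      (((W.map (Int.castRingHom ℚ)).residualGaloisRepOf p hcard hker).baseChangeAlong ι))
    (K : Type) [Field K] [Algebra k K]
    (G : Subgroup (AlgebraicClosure ℚ ≃ₐ[ℚ] AlgebraicClosure ℚ)), G.index = 2 →
    ∀ V : Submodule K (ρbar.baseChange K).V,
      (∀ σ ∈ G, ∀ x ∈ V, (ρbar.baseChange K).ρ σ x ∈ V) → V = ⊥ ∨ V = ⊤

section Odd

variable (W : WeierstrassCurve ℤ) (hΔ : W.Δ ≠ 0) (p : ℕ) [Fact p.Prime]
  (hirr : W.ModRepIsIrreducible p)

include hΔ hirr in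
/-- the determinant of an involution on `E[m]`, `m = p ^ 1` -/
theorem det_involution_aux (hp2 : p ≠ 2) (c : GQE) (hc : c * c = 1) (hc1 : c ≠ 1) (m : ℕ)
    (hm : m = p ^ 1) : LinearMap.det (rhoFin W m c) = -1 := by
  subst hm
  have hp : p.Prime := Fact.out
  haveI := isElliptic_of_Δ_ne_zero W hΔ
  obtain ⟨cb⟩ := Fermat.Agent.S59.H127.nonempty_compatBasis_point
    ((W.map (Int.castRingHom ℚ))⁄(AlgebraicClosure ℚ)) p
  have hcc : ∀ x : QbE, (c : QbE ≃+* QbE) ((c : QbE ≃+* QbE) x) = x := by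
    intro x
    have h := congrArg (fun f : GQE => f x) hc
    simpa [AlgEquiv.mul_apply] using h
  have hne : ∃ x : QbE, (c : QbE ≃+* QbE) x ≠ x := by
    by_contra h
    exact hc1 (AlgEquiv.ext fun x => not_not.mp (not_exists.mp h x))
  have hroot : ∀ μ : QbE, μ ^ p ^ 1 = 1 → c μ = μ ^ (p ^ 1 - 1) := by
    intro μ hμ
    have h1 : μ * c μ = 1 :=
      Fermat.Agent.S59.G4.H178.involution_mul_self_eq_one (K := QbE) two_ne_zero
        (c : QbE ≃+* QbE) hcc hne p hp hp2 1 μ hμ
    have hpos : 0 < p ^ 1 := pow_pos hp.pos 1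
    have h2 : μ * μ ^ (p ^ 1 - 1) = 1 := by
      rw [← pow_succ', Nat.sub_add_cancel hpos, hμ]
    have hμ0 : μ ≠ 0 := by
      rintro rfl
      rw [zero_mul] at h1
      exact zero_ne_one h1
    exact mul_left_cancel₀ hμ0 (h1.trans h2.symm)
  rw [det_rhoFin_eq_natCast' W hΔ p hirr cb 1 c (p ^ 1 - 1) hroot]
  have hpos : 1 ≤ p ^ 1 := pow_pos hp.pos 1
  rw [Nat.cast_sub hpos, ZMod.natCast_self, Nat.cast_one, zero_sub]

end Odd

section Unip

variable (W : WeierstrassCurve ℤ) (hΔ : W.Δ ≠ 0) (hW : W.IsSemistableModel)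

include hΔ hW in
/-- inertia at `q ≠ p` acts unipotently on `E[p]` -/
theorem unip_torsion {p q : ℕ} (hpp : p.Prime) (hq : q.Prime) (hqp : q ≠ p)
    (A : ValuationSubring (AlgebraicClosure ℚ)) (hA : A.LiesOverPrime q)
    (σ : GQE) (hσ : σ ∈ A.inertiaSubgroupIn ℚ) :
    (rhoFin W p σ - 1) * (rhoFin W p σ - 1) = 0 := by
  have hqm : ¬ q ∣ p := fun h => hqp ((Nat.prime_dvd_prime_iff_eq hq hpp).mp h)
  apply LinearMap.ext
  intro x
  apply Subtype.ext
  have hx : p • (x : PtsE W) = 0 := by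
    have := x.2
    rw [Submodule.mem_torsionBy_iff] at this
    rwa [natCast_zsmul] at this
  show (σ • (σ • (x : PtsE W) - x) - (σ • (x : PtsE W) - x)) = 0
  by_cases hgood : W.IsGoodPrimeFor q
  · have h1 := Fermat.Agent.S59.H899.inertia_smul_eq_self_of_good W hq hgood hqm A hA σ hσ
      (x : PtsE W) hx
    rw [h1, sub_self, smul_zero, sub_self]
  · have hc₄ : ¬ (q : ℤ) ∣ W.c₄ := hW q hq (not_not.mp hgood)
    have h1 := Fermat.Agent.S59.H240.inertia_smul_sub_fixed_of_mult W hΔ hq hc₄ hqm A hA σ σ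
      hσ hσ (x : PtsE W) hx
    rw [h1, sub_self]

end Unip

/-- **G-TW.** -/
theorem gtw : GTWStatement := by
  intro p _ hp W hΔ hW hirr hcard hker k _ ι ρbar hρ K _ _ G hG V hV
  have hpp : p.Prime := Fact.out
  have hp2 : p ≠ 2 := by rcases hp with h | h <;> omega
  refine hTW_of_residual p hp ((W.map (Int.castRingHom ℚ)).residualGaloisRepOf p hcard hker)
    ?_ ?_ ?_ k ι ρbar hρ K G hG V hV
  · -- odd
    intro c hc hc1
    exact det_involution_aux W hΔ p hirr hp2 c hc hc1 p (pow_one p).symm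
  · -- irreducible
    intro N hN
    exact hirr.2 N (fun σ x hx => hN σ x hx)
  · -- unipotent inertia at `q ≠ p`
    intro q hq hqp A hA σ hσ
    exact unip_torsion W hΔ hW hpp hq hqp A hA σ hσ

end Fermat.Agent.S59.H405
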