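import Mathlib

/-!
# S59 / G-TW (helper405): complex conjugation on `ℚ̄` — Mathlib only

`exists_involution_Qbar` : there is `c ∈ Gal(ℚ̄/ℚ)` with `c * c = 1`, `c ≠ 1`.
-/

set_option autoImplicit false

namespace Fermat.Agent.S59.H405

/-- **Complex conjugation**: `Gal(ℚ̄/ℚ)` contains an involution `c ≠ 1`. -/
theorem exists_involution_Qbar :
    ∃ c : AlgebraicClosure ℚ ≃ₐ[ℚ] AlgebraicClosure ℚ, c * c = 1 ∧ c ≠ 1 := by
  haveI : Algebra.IsAlgebraic ℚ (AlgebraicClosure ℚ) := AlgebraicClosure.isAlgebraic ℚ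
  haveI : IsAlgClosure ℚ (AlgebraicClosure ℚ) := ⟨inferInstance, inferInstance⟩
  haveI : Normal ℚ (AlgebraicClosure ℚ) := IsAlgClosure.normal ℚ (AlgebraicClosure ℚ)
  let ι : AlgebraicClosure ℚ →ₐ[ℚ] ℂ := IsAlgClosed.lift
  letI : Algebra (AlgebraicClosure ℚ) ℂ := ι.toRingHom.toAlgebra
  haveI : IsScalarTower ℚ (AlgebraicClosure ℚ) ℂ := IsScalarTower.of_algebraMap_eq fun x => by
    show algebraMap ℚ ℂ x = ι (algebraMap ℚ (AlgebraicClosure ℚ) x)
    rw [AlgHom.commutes]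
  have hι : ∀ x : AlgebraicClosure ℚ, algebraMap (AlgebraicClosure ℚ) ℂ x = ι x := fun _ => rfl
  have hinj : Function.Injective ι := ι.toRingHom.injective
  let χ : ℂ ≃ₐ[ℚ] ℂ := Complex.conjAe.restrictScalars ℚ
  have hχ : ∀ z : ℂ, χ z = (starRingEnd ℂ) z := fun z => rfl
  let c : AlgebraicClosure ℚ ≃ₐ[ℚ] AlgebraicClosure ℚ := χ.restrictNormal (AlgebraicClosure ℚ)
  have hc : ∀ x : AlgebraicClosure ℚ, ι (c x) = (starRingEnd ℂ) (ι x) := by
    intro x
    have := AlgEquiv.restrictNormal_commutes χ (AlgebraicClosure ℚ) x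
    rw [hι, hι, hχ] at this
    exact this
  refine ⟨c, ?_, ?_⟩
  · apply AlgEquiv.ext
    intro x
    apply hinj
    show ι (c (c x)) = ι x
    rw [hc, hc, Complex.conj_conj]
  · intro h1
    obtain ⟨i, hi⟩ := IsAlgClosed.exists_pow_nat_eq (-1 : AlgebraicClosure ℚ) (n := 2)
      (by norm_num)
    have h2 : ι i ^ 2 = -1 := by rw [← map_pow, hi, map_neg, map_one]
    have h3 : (starRingEnd ℂ) (ι i) = ι i := by
      rw [← hc, h1]
      rfl
    -- a complex number fixed by conjugation is real, so its square is not `-1`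
    obtain ⟨r, hr⟩ := Complex.conj_eq_iff_real.mp h3
    rw [hr] at h2
    have h4 : ((r ^ 2 : ℝ) : ℂ) = ((-1 : ℝ) : ℂ) := by
      push_cast
      exact h2
    have h5 : r ^ 2 = -1 := by exact_mod_cast h4
    nlinarith [sq_nonneg r]

end Fermat.Agent.S59.H405
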