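import Fermat.Agent.S59.H405.TWInvol

/-!
# S59 / G-TW (helper405): the abstract argument — Mathlib only

`rb : Gm →* M₂(F)` an odd irreducible representation, `G ≤ Gm` of index `2` with a common
eigenvector `v` over an extension field `K`.

* `no_line_of_odd`      : odd + irreducible implies no common eigenvector over any extension;
* `ker_mem_of_line`     : `ker rb ≤ G`;
* `exists_second_line`  : the second eigenline `v' = g₀ v`, `g₀ ∉ G`;
* `unip_trivial`        : unipotent elements of the image are trivial;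
* `rat_lines_of_mem`    : if the involution `c` lies in `G`, the two eigenlines are rational;
* `pow_eq_one_of_lines` : exponent of the image.
-/

set_option autoImplicit false

namespace Fermat.Agent.S59.H405

open Matrix

section Core

variable {Gm : Type*} [Group Gm] {F K : Type*} [Field F] [Field K]

/-- the representation has a common eigenvector -/
def HasLine (m : Gm →* Matrix (Fin 2) (Fin 2) F) : Prop :=
  ∃ v : Fin 2 → F, v ≠ 0 ∧ ∀ σ, IsEig (m σ) v

/-- the base change of a matrix representation -/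
def mapM (φ : F →+* K) (rb : Gm →* Matrix (Fin 2) (Fin 2) F) :
    Gm →* Matrix (Fin 2) (Fin 2) K :=
  (φ.mapMatrix : Matrix (Fin 2) (Fin 2) F →+* Matrix (Fin 2) (Fin 2) K).toMonoidHom.comp rb

theorem mapM_apply (φ : F →+* K) (rb : Gm →* Matrix (Fin 2) (Fin 2) F) (σ : Gm) :
    mapM φ rb σ = (rb σ).map φ := rfl

theorem isEig_pow {M : Matrix (Fin 2) (Fin 2) F} {v : Fin 2 → F} {a : F}
    (h : M *ᵥ v = a • v) (n : ℕ) : (M ^ n) *ᵥ v = a ^ n • v := by
  induction n with
  | zero => rw [pow_zero, pow_zero, Matrix.one_mulVec, one_smul]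
  | succ n ih =>
    rw [pow_succ, ← Matrix.mulVec_mulVec, h, Matrix.mulVec_smul, ih, smul_smul, pow_succ,
      mul_comm]

/-- a rational vector parallel to an eigenvector over `K` is an eigenvector over `F` -/
theorem isEig_rat_of_parallel (φ : F →+* K) {M : Matrix (Fin 2) (Fin 2) F} {v : Fin 2 → K}
    (hv : v ≠ 0) {e : Fin 2 → F} (he : e ≠ 0) (hcr : crs v (φ ∘ e) = 0)
    (h : IsEig (M.map φ) v) : IsEig M e := by
  obtain ⟨t, ht⟩ := exists_smul_of_crs (comp_ne_zero φ he) hcr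
  have ht0 : t ≠ 0 := by
    rintro rfl
    rw [zero_smul] at ht
    exact hv ht
  have hE : φ ∘ e = t⁻¹ • v := by
    rw [ht, smul_smul, inv_mul_cancel₀ ht0, one_smul]
  apply isEig_of_map φ he
  rw [hE]
  exact h.smul _

/-- **Odd and irreducible implies absolutely irreducible.** -/
theorem no_line_of_odd (φ : F →+* K) (rb : Gm →* Matrix (Fin 2) (Fin 2) F)
    (h2 : (2 : F) ≠ 0) (c : Gm) (hcc : c * c = 1) (hdet : (rb c).det = -1)
    (hirr : ¬ HasLine rb) : ¬ HasLine (mapM φ rb) := by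
  rintro ⟨v, hv, h⟩
  have hC : rb c * rb c = 1 := by rw [← map_mul, hcc, map_one]
  obtain ⟨e₁, e₂, h₁, h₂, hcr⟩ := exists_eigen_of_invol h2 (rb c) hC hdet
  apply hirr
  rcases eig_invol φ h2 (rb c) hdet h₁ h₂ v (h c) with h' | h'
  · exact ⟨e₁, ne_zero_of_crs_left hcr, fun σ =>
      isEig_rat_of_parallel φ hv (ne_zero_of_crs_left hcr) h' (h σ)⟩
  · exact ⟨e₂, ne_zero_of_crs_right hcr, fun σ =>
      isEig_rat_of_parallel φ hv (ne_zero_of_crs_right hcr) h' (h σ)⟩

variable (m : Gm →* Matrix (Fin 2) (Fin 2) K) (G : Subgroup Gm)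

/-- The kernel of the representation is contained in `G`. -/
theorem ker_mem_of_line (hG : G.index = 2) (hno : ¬ HasLine m) {v : Fin 2 → K} (hv : v ≠ 0)
    (hline : ∀ σ ∈ G, IsEig (m σ) v) (τ : Gm) (hτ : m τ = 1) : τ ∈ G := by
  by_contra hτG
  apply hno
  refine ⟨v, hv, fun σ => ?_⟩
  by_cases hσ : σ ∈ G
  · exact hline σ hσ
  · have h1 : σ * τ ∈ G := (Subgroup.mul_mem_iff_of_index_two hG).mpr (iff_of_false hσ hτG)
    have h2 := hline _ h1
    rwa [map_mul, hτ, mul_one] at h2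

/-- The second eigenline. -/
theorem exists_second_line (hG : G.index = 2) (hno : ¬ HasLine m) {v : Fin 2 → K} (hv : v ≠ 0)
    (hline : ∀ σ ∈ G, IsEig (m σ) v) :
    ∃ g₀ : Gm, g₀ ∉ G ∧ crs v (m g₀ *ᵥ v) ≠ 0 ∧ ∀ σ ∈ G, IsEig (m σ) (m g₀ *ᵥ v) := by
  have hne : G ≠ ⊤ := by
    intro h
    rw [h, Subgroup.index_top] at hG
    omega
  obtain ⟨g₀, hg₀⟩ : ∃ g₀ : Gm, g₀ ∉ G := by
    by_contra h
    push_neg at h
    exact hne ((Subgroup.eq_top_iff' G).mpr h)
  have hnorm : G.Normal := Subgroup.normal_of_index_eq_two hG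
  refine ⟨g₀, hg₀, ?_, ?_⟩
  · intro hcr
    have hcr' : crs (m g₀ *ᵥ v) v = 0 := by rw [crs_swap, hcr, neg_zero]
    have hg : IsEig (m g₀) v := exists_smul_of_crs hv hcr'
    apply hno
    refine ⟨v, hv, fun σ => ?_⟩
    by_cases hσ : σ ∈ G
    · exact hline σ hσ
    · have hinv : g₀⁻¹ ∉ G := fun h => hg₀ (by simpa using G.inv_mem h)
      have h1 : g₀⁻¹ * σ ∈ G :=
        (Subgroup.mul_mem_iff_of_index_two hG).mpr (iff_of_false hinv hσ)
      have h2 : m σ = m g₀ * m (g₀⁻¹ * σ) := by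
        rw [← map_mul, mul_inv_cancel_left]
      rw [h2]
      exact hg.mul (hline _ h1)
  · intro σ hσ
    have h1 : g₀⁻¹ * σ * g₀ ∈ G := by
      have := hnorm.conj_mem σ hσ g₀⁻¹
      rwa [inv_inv] at this
    obtain ⟨a, ha⟩ := hline _ h1
    refine ⟨a, ?_⟩
    rw [Matrix.mulVec_mulVec, ← map_mul]
    have h2 : σ * g₀ = g₀ * (g₀⁻¹ * σ * g₀) := by group
    rw [h2, map_mul, ← Matrix.mulVec_mulVec, ha, Matrix.mulVec_smul]

/-- A unipotent matrix with an eigenvector `v` for its square fixes `v`. -/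
theorem mulVec_eq_of_unip (h2 : (2 : K) ≠ 0) {M : Matrix (Fin 2) (Fin 2) K}
    (hM : (M - 1) * (M - 1) = 0) {v : Fin 2 → K} (hv : v ≠ 0) (h : IsEig (M * M) v) :
    M *ᵥ v = v := by
  obtain ⟨a, ha⟩ := h
  have hMM : M * M = M + M - 1 := by
    have : M * M = (M - 1) * (M - 1) + (M + M - 1) := by noncomm_ring
    rw [this, hM, zero_add]
  rw [hMM, Matrix.sub_mulVec, Matrix.add_mulVec, Matrix.one_mulVec] at ha
  -- `M v = b v` with `b = (a + 1) / 2`
  have hb : M *ᵥ v = ((a + 1) / 2) • v := by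
    funext i
    have := congrFun ha i
    simp only [Pi.sub_apply, Pi.add_apply, Pi.smul_apply, smul_eq_mul] at this ⊢
    field_simp
    linear_combination this
  set b := (a + 1) / 2 with hbdef
  have h0 : ((M - 1) * (M - 1)) *ᵥ v = ((b - 1) * (b - 1)) • v := by
    rw [← Matrix.mulVec_mulVec]
    have h1 : (M - 1) *ᵥ v = (b - 1) • v := by
      rw [Matrix.sub_mulVec, hb, Matrix.one_mulVec, sub_smul, one_smul]
    rw [h1, Matrix.mulVec_smul, h1, smul_smul]
  rw [hM, Matrix.zero_mulVec] at h0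
  have hb1 : b = 1 := by
    have h3 : (b - 1) * (b - 1) = 0 := by
      by_contra hne
      apply hv
      have := congrArg (fun w => ((b - 1) * (b - 1))⁻¹ • w) h0
      simp only [smul_zero, smul_smul, inv_mul_cancel₀ hne, one_smul] at this
      exact this.symm
    rcases mul_eq_zero.mp h3 with h | h <;> exact sub_eq_zero.mp h
  rw [hb, hb1, one_smul]

/-- **Unipotent elements of the image are trivial.** -/
theorem unip_trivial (h2 : (2 : K) ≠ 0) (hG : G.index = 2) {v v' : Fin 2 → K}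
    (hvv' : crs v v' ≠ 0) (hline : ∀ σ ∈ G, IsEig (m σ) v)
    (hline' : ∀ σ ∈ G, IsEig (m σ) v') (γ : Gm) (hγ : (m γ - 1) * (m γ - 1) = 0) :
    m γ = 1 := by
  have hsq : γ * γ ∈ G := Subgroup.mul_self_mem_of_index_two hG γ
  have e1 := hline _ hsq
  have e2 := hline' _ hsq
  rw [map_mul] at e1 e2
  exact eq_one_of_mulVec hvv'
    (mulVec_eq_of_unip h2 hγ (ne_zero_of_crs_left hvv') e1)
    (mulVec_eq_of_unip h2 hγ (ne_zero_of_crs_right hvv') e2)

/-- If every element of `G` has exponent `N` on the two lines, then the squares of all elements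
have exponent `N`. -/
theorem pow_eq_one_of_index_two (hG : G.index = 2) (N : ℕ)
    (h : ∀ σ ∈ G, m σ ^ N = 1) (γ : Gm) : m γ ^ (2 * N) = 1 := by
  have hsq : γ * γ ∈ G := Subgroup.mul_self_mem_of_index_two hG γ
  have := h _ hsq
  rw [map_mul, ← pow_two, ← pow_mul] at this
  exact this

end Core

section Rational

variable {Gm : Type*} [Group Gm] {F K : Type*} [Field F] [Field K]

/-- If the odd involution `c` lies in `G`, the two eigenlines of `G` are rational, and every
element of `G` is killed by the exponent of `Fˣ`. -/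
theorem pow_eq_one_of_invol_mem (φ : F →+* K) (rb : Gm →* Matrix (Fin 2) (Fin 2) F)
    (h2 : (2 : F) ≠ 0) (c : Gm) (hcc : c * c = 1) (hdet : (rb c).det = -1)
    (G : Subgroup Gm) (hcG : c ∈ G) {v v' : Fin 2 → K}
    (hvv' : crs v v' ≠ 0) (hline : ∀ σ ∈ G, IsEig (mapM φ rb σ) v)
    (hline' : ∀ σ ∈ G, IsEig (mapM φ rb σ) v')
    (N : ℕ) (hN : ∀ a : F, a ≠ 0 → a ^ N = 1) (σ : Gm) (hσ : σ ∈ G) : rb σ ^ N = 1 := by
  have hC : rb c * rb c = 1 := by rw [← map_mul, hcc, map_one]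
  obtain ⟨e₁, e₂, h₁, h₂, hcr⟩ := exists_eigen_of_invol h2 (rb c) hC hdet
  have he₁ := ne_zero_of_crs_left hcr
  have he₂ := ne_zero_of_crs_right hcr
  have hv := ne_zero_of_crs_left hvv'
  have hv' := ne_zero_of_crs_right hvv'
  -- both rational eigenvectors are eigenvectors of all of `G`
  have key : (∀ τ ∈ G, IsEig (rb τ) e₁) ∧ (∀ τ ∈ G, IsEig (rb τ) e₂) := by
    have a1 := eig_invol φ h2 (rb c) hdet h₁ h₂ v (hline c hcG)
    have a2 := eig_invol φ h2 (rb c) hdet h₁ h₂ v' (hline' c hcG)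
    have hpar : ∀ {e : Fin 2 → F}, e ≠ 0 → crs v (φ ∘ e) = 0 → crs v' (φ ∘ e) = 0 → False := by
      intro e he c1 c2
      obtain ⟨t, ht⟩ := exists_smul_of_crs (comp_ne_zero φ he) c1
      obtain ⟨t', ht'⟩ := exists_smul_of_crs (comp_ne_zero φ he) c2
      apply hvv'
      rw [ht, ht', crs_smul_left, crs_smul_right, crs_self, mul_zero, mul_zero]
    rcases a1 with a1 | a1
    · rcases a2 with a2 | a2
      · exact absurd (hpar he₁ a1 a2) id
      · exact ⟨fun τ hτ => isEig_rat_of_parallel φ hv he₁ a1 (hline τ hτ),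
          fun τ hτ => isEig_rat_of_parallel φ hv' he₂ a2 (hline' τ hτ)⟩
    · rcases a2 with a2 | a2
      · exact ⟨fun τ hτ => isEig_rat_of_parallel φ hv' he₁ a2 (hline' τ hτ),
          fun τ hτ => isEig_rat_of_parallel φ hv he₂ a1 (hline τ hτ)⟩
      · exact absurd (hpar he₂ a1 a2) id
  have hfix : ∀ {e : Fin 2 → F}, e ≠ 0 → IsEig (rb σ) e → (rb σ ^ N) *ᵥ e = e := by
    intro e he ⟨a, ha⟩
    have ha0 : a ≠ 0 := by
      rintro rfl
      rw [zero_smul] at ha
      apply he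
      have h3 : rb σ⁻¹ * rb σ = 1 := by rw [← map_mul, inv_mul_cancel, map_one]
      have h4 : (rb σ⁻¹ * rb σ) *ᵥ e = e := by rw [h3, Matrix.one_mulVec]
      rw [← Matrix.mulVec_mulVec, ha, Matrix.mulVec_zero] at h4
      exact h4.symm
    rw [isEig_pow ha, hN a ha0, one_smul]
  exact eq_one_of_mulVec hcr (hfix he₁ (key.1 σ hσ)) (hfix he₂ (key.2 σ hσ))

end Rational

end Fermat.Agent.S59.H405
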