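import Fermat.Agent.S59.H405.TWCore

/-!
# S59 / G-TW (helper405): the group-theoretic endgame — Mathlib only

* `pow_48_eq_one`            : `GL₂(𝔽₃)` has exponent dividing `48`;
* `exists_index_two_of_ne_top` : in a finite `2`-group every element which is not a generator
  lies in a subgroup of index `2`;
* `core`                     : the abstract form of G-TW.
-/

set_option autoImplicit false

namespace Fermat.Agent.S59.H405

open Matrix

/-- `GL₂(𝔽₃)` has exponent dividing `48`. -/
theorem pow_48_eq_one (U : (Matrix (Fin 2) (Fin 2) (ZMod 3))ˣ) : U ^ 48 = 1 := by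
  have h : Nat.card (GL (Fin 2) (ZMod 3)) = 48 := by
    rw [Matrix.card_GL_field]
    simp [Fin.prod_univ_two, ZMod.card]
  have := pow_card_eq_one' (G := GL (Fin 2) (ZMod 3)) (x := U)
  rwa [h] at this

/-- In a finite `2`-group, an element which does not generate the group lies in a subgroup of
index `2`. -/
theorem exists_index_two_of_ne_top {Γ : Type*} [Group Γ] [Finite Γ] (hΓ : IsPGroup 2 Γ)
    (γ₀ : Γ) (hγ₀ : Subgroup.zpowers γ₀ ≠ ⊤) :
    ∃ H' : Subgroup Γ, H'.index = 2 ∧ γ₀ ∈ H' := by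
  haveI : Fact (Nat.Prime 2) := ⟨Nat.prime_two⟩
  obtain ⟨N, hN⟩ := IsPGroup.iff_card.mp hΓ
  obtain ⟨n, hn⟩ := IsPGroup.iff_card.mp (hΓ.to_subgroup (Subgroup.zpowers γ₀))
  have hle : Nat.card (Subgroup.zpowers γ₀) ∣ Nat.card Γ := Subgroup.card_subgroup_dvd_card _
  have hne : Nat.card (Subgroup.zpowers γ₀) ≠ Nat.card Γ := fun h =>
    hγ₀ (Subgroup.eq_top_of_card_eq _ h)
  have hlt : n < N := by
    rw [hn, hN] at hle hne
    have h1 : n ≤ N := (Nat.pow_dvd_pow_iff_le_right (by norm_num)).mp hle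
    rcases Nat.lt_or_eq_of_le h1 with h | h
    · exact h
    · exact absurd (by rw [h]) hne
  have hdvd : 2 ^ (N - 1) ∣ Nat.card Γ := by
    rw [hN]
    exact pow_dvd_pow 2 (Nat.sub_le N 1)
  obtain ⟨H', hH', hZ⟩ := Sylow.exists_subgroup_card_pow_prime_le 2 hdvd
    (Subgroup.zpowers γ₀) hn (by omega)
  refine ⟨H', ?_, hZ (Subgroup.mem_zpowers γ₀)⟩
  have h1 := Subgroup.card_mul_index H'
  rw [hH', hN] at h1
  have h2 : (2 : ℕ) ^ N = 2 ^ (N - 1) * 2 := by
    rw [← pow_succ]
    congr 1
    omega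
  rw [h2] at h1
  exact Nat.eq_of_mul_eq_mul_left (by positivity) h1

section Final

variable {Gm : Type*} [Group Gm] {K : Type*} [Field K]

/-- In characteristic `3`, a matrix of exponent `48` with two independent eigenvectors has
exponent `16`. -/
theorem pow_16_of_pow_48 (h3 : (3 : K) = 0) {M : Matrix (Fin 2) (Fin 2) K}
    (hM : M ^ 48 = 1) {v v' : Fin 2 → K} (hvv' : crs v v' ≠ 0) (hv : IsEig M v)
    (hv' : IsEig M v') : M ^ 16 = 1 := by
  have key : ∀ {w : Fin 2 → K}, w ≠ 0 → IsEig M w → (M ^ 16) *ᵥ w = w := by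
    intro w hw ⟨a, ha⟩
    have h48 := isEig_pow ha 48
    rw [hM, Matrix.one_mulVec] at h48
    have ha48 : a ^ 48 = 1 := by
      by_contra hne
      apply hw
      have h1 : (a ^ 48 - 1) • w = 0 := by rw [sub_smul, one_smul, ← h48, sub_self]
      rcases smul_eq_zero.mp h1 with h | h
      · exact absurd (sub_eq_zero.mp h) hne
      · exact h
    have ha16 : a ^ 16 = 1 := by
      have h1 : (a ^ 16 - 1) ^ 3 = 0 := by
        have : (a ^ 16 - 1) ^ 3 = (a ^ 48 - 1) - 3 * (a ^ 16 * (a ^ 16 - 1)) := by ring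
        rw [this, ha48, h3]
        ring
      exact sub_eq_zero.mp (pow_eq_zero_iff (by norm_num) |>.mp h1)
    rw [isEig_pow ha, ha16, one_smul]
  exact eq_one_of_mulVec hvv' (key (ne_zero_of_crs_left hvv') hv)
    (key (ne_zero_of_crs_right hvv') hv')

/-- **G-TW, abstract form.**  Let `rb : Gm → GL₂(𝔽_p)`, `p ∈ {3, 5}`, be odd and irreducible, and
suppose that (once unipotent elements of the image are known to be trivial) every subgroup of
index `2` containing the kernel equals `Gstar`, where `c ∈ Gstar` if `p = 5`.  Then no subgroup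
of index `2` has a common eigenvector over any extension field. -/
theorem core (p : ℕ) [Fact p.Prime] (hp : p = 3 ∨ p = 5)
    (rb : Gm →* Matrix (Fin 2) (Fin 2) (ZMod p)) (c : Gm) (hcc : c * c = 1)
    (hdet : (rb c).det = -1) (hirr : ¬ HasLine rb)
    (φ : ZMod p →+* K) (G : Subgroup Gm) (hG : G.index = 2)
    (Gstar : Subgroup Gm) (hc5 : p = 5 → c ∈ Gstar)
    (harith : (∀ γ, (rb γ - 1) * (rb γ - 1) = 0 → rb γ = 1) →
      ∀ G' : Subgroup Gm, G'.index = 2 → (∀ τ, rb τ = 1 → τ ∈ G') → G' = Gstar)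
    (v : Fin 2 → K) (hv : v ≠ 0) (hline : ∀ σ ∈ G, IsEig ((rb σ).map φ) v) : False := by
  have hp2 : p ≠ 2 := by rcases hp with h | h <;> omega
  have h2 : (2 : ZMod p) ≠ 0 := by
    intro h
    have h' : ((2 : ℕ) : ZMod p) = 0 := by exact_mod_cast h
    rw [ZMod.natCast_eq_zero_iff] at h'
    have := Nat.le_of_dvd (by norm_num) h'
    have := (Fact.out : p.Prime).two_le
    omega
  have h2K : (2 : K) ≠ 0 := by
    intro h
    apply h2
    have : φ 2 = 0 := by rw [map_ofNat]; exact h
    exact (map_eq_zero φ).mp this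
  have hno : ¬ HasLine (mapM φ rb) := no_line_of_odd φ rb h2 c hcc hdet hirr
  obtain ⟨g₀, hg₀, hcr, hline'⟩ := exists_second_line (mapM φ rb) G hG hno hv hline
  have hker : ∀ τ, rb τ = 1 → τ ∈ G := fun τ hτ =>
    ker_mem_of_line (mapM φ rb) G hG hno hv hline τ
      (by rw [mapM_apply, hτ]; exact (map_eq_one_iff φ 1).mpr rfl)
  have hunip : ∀ γ, (rb γ - 1) * (rb γ - 1) = 0 → rb γ = 1 := by
    intro γ hγ
    have h1 : (mapM φ rb γ - 1) * (mapM φ rb γ - 1) = 0 := by
      have := congrArg (φ.mapMatrix : Matrix (Fin 2) (Fin 2) (ZMod p) →+* _) hγ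
      rw [map_mul, map_sub, map_one, map_zero] at this
      exact this
    have h3 := unip_trivial (mapM φ rb) G h2K hG hcr hline hline' γ h1
    rw [mapM_apply] at h3
    exact (map_eq_one_iff φ _).mp h3
  have hGstar : G = Gstar := harith hunip G hG hker
  -- the exponent of the image
  have hexp : ∀ σ ∈ G, rb σ ^ 16 = 1 := by
    intro σ hσ
    rcases hp with h3 | h5
    · subst h3
      have h48 : rb σ ^ 48 = 1 := by
        have := pow_48_eq_one (MonoidHom.toHomUnits rb σ)
        have := congrArg Units.val this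
        simpa using this
      have h3K : (3 : K) = 0 := by
        have : φ 3 = 0 := by
          have h0 : (3 : ZMod 3) = 0 := by exact_mod_cast ZMod.natCast_self 3
          rw [h0, map_zero]
        rwa [map_ofNat] at this
      have h48K : mapM φ rb σ ^ 48 = 1 := by
        have := congrArg (φ.mapMatrix :
          Matrix (Fin 2) (Fin 2) (ZMod 3) →+* Matrix (Fin 2) (Fin 2) K) h48
        rw [map_pow, map_one] at this
        exact this
      have h16K := pow_16_of_pow_48 h3K h48K hcr (hline σ hσ) (hline' σ hσ)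
      have h16 : (rb σ ^ 16).map φ = 1 := by
        have h := map_pow (φ.mapMatrix :
          Matrix (Fin 2) (Fin 2) (ZMod 3) →+* Matrix (Fin 2) (Fin 2) K) (rb σ) 16
        rw [RingHom.mapMatrix_apply, RingHom.mapMatrix_apply] at h
        rw [h]
        exact h16K
      exact (map_eq_one_iff φ _).mp h16
    · subst h5
      have hcG : c ∈ G := hGstar ▸ hc5 rfl
      have h4 := pow_eq_one_of_invol_mem φ rb h2 c hcc hdet G hcG hcr hline hline' 4
        (fun a ha => by
          have := ZMod.pow_card_sub_one_eq_one ha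
          simpa using this) σ hσ
      rw [show 16 = 4 * 4 from rfl, pow_mul, h4, one_pow]
  have hexp' : ∀ γ, rb γ ^ 32 = 1 := fun γ => pow_eq_one_of_index_two rb G hG 16 hexp γ
  -- the image as a finite `2`-group
  let f : Gm →* (MonoidHom.toHomUnits rb).range := (MonoidHom.toHomUnits rb).rangeRestrict
  have hf : Function.Surjective f := MonoidHom.rangeRestrict_surjective _
  have hfval : ∀ σ, ((f σ : (Matrix (Fin 2) (Fin 2) (ZMod p))ˣ) :
      Matrix (Fin 2) (Fin 2) (ZMod p)) = rb σ := fun σ => rfl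
  have hf1 : ∀ σ, f σ = 1 ↔ rb σ = 1 := by
    intro σ
    constructor
    · intro h
      have := congrArg (fun x : (MonoidHom.toHomUnits rb).range =>
        ((x : (Matrix (Fin 2) (Fin 2) (ZMod p))ˣ) : Matrix (Fin 2) (Fin 2) (ZMod p))) h
      simpa [hfval] using this
    · intro h
      apply Subtype.ext
      apply Units.ext
      rw [hfval, h]
      rfl
  have hΓ : IsPGroup 2 (MonoidHom.toHomUnits rb).range := by
    intro g
    obtain ⟨γ, rfl⟩ := hf g
    refine ⟨5, ?_⟩
    rw [← map_pow, hf1, map_pow]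
    exact hexp' γ
  by_cases hgen : Subgroup.zpowers (f g₀) = ⊤
  · -- the image is cyclic, hence commutative
    have hcomm : ∀ σ, rb σ * rb c = rb c * rb σ := by
      intro σ
      have h1 : f σ ∈ Subgroup.zpowers (f g₀) := by rw [hgen]; exact Subgroup.mem_top _
      have h2' : f c ∈ Subgroup.zpowers (f g₀) := by rw [hgen]; exact Subgroup.mem_top _
      obtain ⟨k, hk⟩ := Subgroup.mem_zpowers_iff.mp h1
      obtain ⟨l, hl⟩ := Subgroup.mem_zpowers_iff.mp h2'
      have h3 : f σ * f c = f c * f σ := by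
        rw [← hk, ← hl, ← _root_.zpow_add, ← _root_.zpow_add, add_comm]
      have := congrArg (fun x : (MonoidHom.toHomUnits rb).range =>
        ((x : (Matrix (Fin 2) (Fin 2) (ZMod p))ˣ) : Matrix (Fin 2) (Fin 2) (ZMod p))) h3
      simpa [hfval] using this
    have hC : rb c * rb c = 1 := by rw [← map_mul, hcc, map_one]
    obtain ⟨e₁, e₂, h₁, h₂, hcr12⟩ := exists_eigen_of_invol h2 (rb c) hC hdet
    have he₁ := ne_zero_of_crs_left hcr12
    apply hirr
    refine ⟨e₁, he₁, fun σ => ?_⟩
    rw [isEig_iff_crs he₁]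
    by_contra hne
    have hCw : rb c *ᵥ (rb σ *ᵥ e₁) = rb σ *ᵥ e₁ := by
      rw [Matrix.mulVec_mulVec, ← hcomm σ, ← Matrix.mulVec_mulVec, h₁]
    have hzero : rb c - 1 = 0 := by
      apply eq_zero_of_mulVec hne
      · rw [Matrix.sub_mulVec, hCw, Matrix.one_mulVec, sub_self]
      · rw [Matrix.sub_mulVec, h₁, Matrix.one_mulVec, sub_self]
    have hc1 : rb c = 1 := sub_eq_zero.mp hzero
    rw [hc1, Matrix.det_one] at hdet
    apply h2
    linear_combination hdet
  · obtain ⟨H', hH', hmem⟩ := exists_index_two_of_ne_top hΓ (f g₀) hgen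
    have hidx : (H'.comap f).index = 2 := by
      rw [Subgroup.index_comap_of_surjective H' hf, hH']
    have hker' : ∀ τ, rb τ = 1 → τ ∈ H'.comap f := by
      intro τ hτ
      rw [Subgroup.mem_comap, (hf1 τ).mpr hτ]
      exact H'.one_mem
    have h1 : H'.comap f = Gstar := harith hunip _ hidx hker'
    apply hg₀
    rw [hGstar, ← h1]
    exact hmem

end Final

end Fermat.Agent.S59.H405
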