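import Fermat.Agent.S59.H405.TWLin

/-!
# S59 / G-TW (helper405): involutions of determinant `-1` — Mathlib only

* `crs_mulVec`            : `crs (M v) (M u) = det M * crs v u`;
* `exists_eigen_of_invol` : an involution `C` of determinant `-1` has eigenvectors `e₁, e₂`
  (eigenvalues `1, -1`) with `crs e₁ e₂ ≠ 0`;
* `eig_invol`             : over any extension field, every eigenvector of `C` is a multiple of
  `e₁` or of `e₂`.
-/

set_option autoImplicit false

namespace Fermat.Agent.S59.H405

open Matrix

section Invol

variable {F : Type*} [Field F]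

theorem crs_mulVec (M : Matrix (Fin 2) (Fin 2) F) (v u : Fin 2 → F) :
    crs (M *ᵥ v) (M *ᵥ u) = M.det * crs v u := by
  unfold crs
  rw [mulVec_apply_two, mulVec_apply_two, mulVec_apply_two, mulVec_apply_two, Matrix.det_fin_two]
  ring

/-- the standard basis vectors of `F²` -/
def vec2 (x y : F) : Fin 2 → F := ![x, y]

@[simp] theorem vec2_zero (x y : F) : vec2 x y 0 = x := rfl

@[simp] theorem vec2_one (x y : F) : vec2 x y 1 = y := rfl

theorem mulVec_vec2 (M : Matrix (Fin 2) (Fin 2) F) (x y : F) :
    M *ᵥ vec2 x y = vec2 (M 0 0 * x + M 0 1 * y) (M 1 0 * x + M 1 1 * y) := by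
  funext i
  fin_cases i
  · show (M *ᵥ vec2 x y) 0 = _
    rw [mulVec_apply_two]; rfl
  · show (M *ᵥ vec2 x y) 1 = _
    rw [mulVec_apply_two]; rfl

theorem vec2_ext {x y x' y' : F} (hx : x = x') (hy : y = y') : vec2 x y = vec2 x' y' := by
  rw [hx, hy]

theorem neg_vec2 (x y : F) : - vec2 x y = vec2 (-x) (-y) := by
  funext i
  fin_cases i <;> rfl

/-- An involution of determinant `-1` (characteristic `≠ 2`) has an eigenbasis with eigenvalues
`1` and `-1`. -/
theorem exists_eigen_of_invol (h2 : (2 : F) ≠ 0) (C : Matrix (Fin 2) (Fin 2) F)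
    (hC : C * C = 1) (hdet : C.det = -1) :
    ∃ e₁ e₂ : Fin 2 → F, C *ᵥ e₁ = e₁ ∧ C *ᵥ e₂ = - e₂ ∧ crs e₁ e₂ ≠ 0 := by
  have h00 := congrFun (congrFun hC 0) 0
  have h01 := congrFun (congrFun hC 0) 1
  have h10 := congrFun (congrFun hC 1) 0
  have h11 := congrFun (congrFun hC 1) 1
  simp only [Matrix.mul_apply, Fin.sum_univ_two, Matrix.one_apply_eq, Matrix.one_apply_ne,
    ne_eq, Fin.reduceEq, not_false_eq_true, Fin.isValue] at h00 h01 h10 h11
  rw [Matrix.det_fin_two] at hdet
  set a := C 0 0 with ha
  set b := C 0 1 with hb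
  set c := C 1 0 with hc
  set d := C 1 1 with hd
  -- the trace vanishes
  have htr : a + d = 0 := by
    by_contra hne
    have hb0 : b = 0 := by
      have : (a + d) * b = 0 := by linear_combination h01
      rcases mul_eq_zero.mp this with h | h
      · exact absurd h hne
      · exact h
    have hc0 : c = 0 := by
      have : (a + d) * c = 0 := by linear_combination h10
      rcases mul_eq_zero.mp this with h | h
      · exact absurd h hne
      · exact h
    have had : a = d := by
      have : (a + d) * (a - d) = 0 := by linear_combination h00 - h11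
      rcases mul_eq_zero.mp this with h | h
      · exact absurd h hne
      · exact sub_eq_zero.mp h
    apply h2
    linear_combination hdet - h11 - d * had + 2 * c * hb0
  have hd' : d = -a := by linear_combination htr
  have hq : a * a + b * c = 1 := h00
  by_cases hc0 : c = 0
  · by_cases hb0 : b = 0
    · -- diagonal case
      have ha2 : (a - 1) * (a + 1) = 0 := by
        rw [hb0] at hq
        linear_combination hq
      rcases mul_eq_zero.mp ha2 with h | h
      · have ha1 : a = 1 := sub_eq_zero.mp h
        refine ⟨vec2 1 0, vec2 0 1, ?_, ?_, ?_⟩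
        · rw [mulVec_vec2]
          apply vec2_ext
          · rw [← ha, ha1]; ring
          · rw [← hc, hc0]; ring
        · rw [mulVec_vec2, neg_vec2]
          apply vec2_ext
          · rw [← hb, hb0]; ring
          · rw [← hd, hd', ha1]; ring
        · unfold crs
          simp
      · have ha1 : a = -1 := by linear_combination h
        refine ⟨vec2 0 1, vec2 1 0, ?_, ?_, ?_⟩
        · rw [mulVec_vec2]
          apply vec2_ext
          · rw [← hb, hb0]; ring
          · rw [← hd, hd', ha1]; ring
        · rw [mulVec_vec2, neg_vec2]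
          apply vec2_ext
          · rw [← ha, ha1]; ring
          · rw [← hc, hc0]; ring
        · unfold crs
          simp
    · refine ⟨vec2 b (1 - a), vec2 b (-(1 + a)), ?_, ?_, ?_⟩
      · rw [mulVec_vec2]
        apply vec2_ext
        · rw [← ha, ← hb]; ring
        · rw [← hc, ← hd, hd']
          linear_combination hq
      · rw [mulVec_vec2, neg_vec2]
        apply vec2_ext
        · rw [← ha, ← hb]; ring
        · rw [← hc, ← hd, hd']
          linear_combination hq
      · unfold crs
        simp only [vec2_zero, vec2_one]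
        intro h
        have : (2 : F) * b = 0 := by linear_combination -h
        rcases mul_eq_zero.mp this with h | h
        · exact h2 h
        · exact hb0 h
  · refine ⟨vec2 (1 + a) c, vec2 (a - 1) c, ?_, ?_, ?_⟩
    · rw [mulVec_vec2]
      apply vec2_ext
      · rw [← ha, ← hb]
        linear_combination hq
      · rw [← hc, ← hd, hd']; ring
    · rw [mulVec_vec2, neg_vec2]
      apply vec2_ext
      · rw [← ha, ← hb]
        linear_combination hq
      · rw [← hc, ← hd, hd']; ring
    · unfold crs
      simp only [vec2_zero, vec2_one]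
      intro h
      have : (2 : F) * c = 0 := by linear_combination h
      rcases mul_eq_zero.mp this with h | h
      · exact h2 h
      · exact hc0 h

variable {K : Type*} [Field K] (φ : F →+* K)

/-- Over an extension field, the eigenvectors of an involution of determinant `-1` are the
multiples of the two rational eigenvectors. -/
theorem eig_invol (h2 : (2 : F) ≠ 0) (C : Matrix (Fin 2) (Fin 2) F) (hdet : C.det = -1)
    {e₁ e₂ : Fin 2 → F} (h₁ : C *ᵥ e₁ = e₁) (h₂ : C *ᵥ e₂ = - e₂)
    (v : Fin 2 → K) (hv : IsEig (C.map φ) v) :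
    crs v (φ ∘ e₁) = 0 ∨ crs v (φ ∘ e₂) = 0 := by
  obtain ⟨a, ha⟩ := hv
  have hdetK : (C.map φ).det = -1 := by
    have := RingHom.map_det φ C
    rw [RingHom.mapMatrix_apply] at this
    rw [← this, hdet, map_neg, map_one]
  have hE₁ : (C.map φ) *ᵥ (φ ∘ e₁) = φ ∘ e₁ := by rw [map_mulVec_comp, h₁]
  have hE₂ : (C.map φ) *ᵥ (φ ∘ e₂) = - (φ ∘ e₂) := by
    rw [map_mulVec_comp, h₂]
    funext i
    simp only [Function.comp_apply, Pi.neg_apply, map_neg]
  have k1 := crs_mulVec (C.map φ) v (φ ∘ e₁)
  have k2 := crs_mulVec (C.map φ) v (φ ∘ e₂)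
  rw [ha, hE₁, hdetK, crs_smul_left] at k1
  rw [ha, hE₂, hdetK, crs_smul_left] at k2
  have k2' : crs v (-(φ ∘ e₂)) = - crs v (φ ∘ e₂) := by
    have : -(φ ∘ e₂) = (-1 : K) • (φ ∘ e₂) := by rw [neg_one_smul]
    rw [this, crs_smul_right]; ring
  rw [k2'] at k2
  have h2K : (2 : K) ≠ 0 := by
    intro h
    apply h2
    have : φ 2 = 0 := by rw [map_ofNat]; exact h
    exact (map_eq_zero φ).mp this
  -- `(a + 1) * crs v E₁ = 0` and `(a - 1) * crs v E₂ = 0`
  have m1 : (a + 1) * crs v (φ ∘ e₁) = 0 := by linear_combination k1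
  have m2 : (a - 1) * crs v (φ ∘ e₂) = 0 := by linear_combination -k2
  rcases mul_eq_zero.mp m1 with h | h
  · rcases mul_eq_zero.mp m2 with h' | h'
    · exfalso
      apply h2K
      linear_combination h - h'
    · exact Or.inr h'
  · exact Or.inl h

end Invol

end Fermat.Agent.S59.H405
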