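import Mathlib

/-!
# S59 / G-TW (helper405): linear algebra of `2 × 2` matrices — Mathlib only

Elementary facts used in the proof that the mod `p` representation of a semistable elliptic curve
stays absolutely irreducible on every subgroup of index `2` (`p ∈ {3, 5}`).

* `crs v u`               : the cross product `v 0 * u 1 - v 1 * u 0`;
* `exists_smul_of_crs`    : `crs v u = 0`, `u ≠ 0` implies `v = t • u`;
* `eq_zero_of_mulVec`     : a matrix killing two independent vectors is zero;
* `Invol`                 : the eigenvectors of an involution of determinant `-1`.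
-/

set_option autoImplicit false

namespace Fermat.Agent.S59.H405

open Matrix

section Cross

variable {F : Type*} [Field F]

/-- the cross product of two vectors of `F²` -/
def crs (v u : Fin 2 → F) : F := v 0 * u 1 - v 1 * u 0

theorem crs_self (v : Fin 2 → F) : crs v v = 0 := by
  unfold crs; ring

theorem crs_smul_left (t : F) (v u : Fin 2 → F) : crs (t • v) u = t * crs v u := by
  unfold crs; simp only [Pi.smul_apply, smul_eq_mul]; ring

theorem crs_smul_right (t : F) (v u : Fin 2 → F) : crs v (t • u) = t * crs v u := by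
  unfold crs; simp only [Pi.smul_apply, smul_eq_mul]; ring

theorem crs_swap (v u : Fin 2 → F) : crs u v = - crs v u := by
  unfold crs; ring

theorem ne_zero_of_crs_left {v u : Fin 2 → F} (h : crs v u ≠ 0) : v ≠ 0 := by
  rintro rfl
  apply h
  unfold crs
  simp

theorem ne_zero_of_crs_right {v u : Fin 2 → F} (h : crs v u ≠ 0) : u ≠ 0 := by
  rintro rfl
  apply h
  unfold crs
  simp

theorem exists_smul_of_crs {v u : Fin 2 → F} (hu : u ≠ 0) (h : crs v u = 0) :
    ∃ t : F, v = t • u := by
  unfold crs at h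
  by_cases h0 : u 0 = 0
  · have h1 : u 1 ≠ 0 := by
      intro h1
      apply hu
      funext i
      fin_cases i
      · exact h0
      · exact h1
    refine ⟨v 1 / u 1, ?_⟩
    funext i
    fin_cases i
    · show v 0 = v 1 / u 1 * u 0
      rw [h0, mul_zero]
      rw [h0, mul_zero, sub_zero] at h
      rcases mul_eq_zero.mp h with h | h
      · exact h
      · exact absurd h h1
    · show v 1 = v 1 / u 1 * u 1
      field_simp
  · refine ⟨v 0 / u 0, ?_⟩
    funext i
    fin_cases i
    · show v 0 = v 0 / u 0 * u 0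
      field_simp
    · show v 1 = v 0 / u 0 * u 1
      field_simp
      linear_combination -h

theorem mulVec_apply_two (M : Matrix (Fin 2) (Fin 2) F) (v : Fin 2 → F) (i : Fin 2) :
    (M *ᵥ v) i = M i 0 * v 0 + M i 1 * v 1 := by
  simp [Matrix.mulVec, dotProduct, Fin.sum_univ_two]

theorem eq_zero_of_mulVec {M : Matrix (Fin 2) (Fin 2) F} {v u : Fin 2 → F}
    (hvu : crs v u ≠ 0) (hv : M *ᵥ v = 0) (hu : M *ᵥ u = 0) : M = 0 := by
  have key : ∀ i : Fin 2, M i 0 = 0 ∧ M i 1 = 0 := by
    intro i
    have h1 := congrFun hv i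
    have h2 := congrFun hu i
    rw [mulVec_apply_two] at h1 h2
    simp only [Pi.zero_apply] at h1 h2
    unfold crs at hvu
    constructor
    · have : M i 0 * (v 0 * u 1 - v 1 * u 0) = 0 := by
        linear_combination u 1 * h1 - v 1 * h2
      rcases mul_eq_zero.mp this with h | h
      · exact h
      · exact absurd h hvu
    · have : M i 1 * (v 0 * u 1 - v 1 * u 0) = 0 := by
        linear_combination -u 0 * h1 + v 0 * h2
      rcases mul_eq_zero.mp this with h | h
      · exact h
      · exact absurd h hvu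
  ext i j
  fin_cases j
  · exact (key i).1
  · exact (key i).2

theorem eq_one_of_mulVec {M : Matrix (Fin 2) (Fin 2) F} {v u : Fin 2 → F}
    (hvu : crs v u ≠ 0) (hv : M *ᵥ v = v) (hu : M *ᵥ u = u) : M = 1 := by
  have h : M - 1 = 0 := by
    apply eq_zero_of_mulVec hvu
    · rw [Matrix.sub_mulVec, hv, Matrix.one_mulVec, sub_self]
    · rw [Matrix.sub_mulVec, hu, Matrix.one_mulVec, sub_self]
  exact sub_eq_zero.mp h

/-- `v` is an eigenvector of `M` -/
def IsEig (M : Matrix (Fin 2) (Fin 2) F) (v : Fin 2 → F) : Prop := ∃ a : F, M *ᵥ v = a • v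

theorem isEig_iff_crs {M : Matrix (Fin 2) (Fin 2) F} {v : Fin 2 → F} (hv : v ≠ 0) :
    IsEig M v ↔ crs (M *ᵥ v) v = 0 := by
  constructor
  · rintro ⟨a, ha⟩
    rw [ha, crs_smul_left, crs_self, mul_zero]
  · intro h
    exact exists_smul_of_crs hv h

theorem IsEig.smul {M : Matrix (Fin 2) (Fin 2) F} {v : Fin 2 → F} (h : IsEig M v) (t : F) :
    IsEig M (t • v) := by
  obtain ⟨a, ha⟩ := h
  exact ⟨a, by rw [Matrix.mulVec_smul, ha, smul_comm]⟩

theorem IsEig.mul {M N : Matrix (Fin 2) (Fin 2) F} {v : Fin 2 → F} (hM : IsEig M v)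
    (hN : IsEig N v) : IsEig (M * N) v := by
  obtain ⟨a, ha⟩ := hM
  obtain ⟨b, hb⟩ := hN
  exact ⟨b * a, by rw [← Matrix.mulVec_mulVec, hb, Matrix.mulVec_smul, ha, smul_smul]⟩

end Cross

section Map

variable {F K : Type*} [Field F] [Field K] (φ : F →+* K)

theorem map_mulVec_comp (M : Matrix (Fin 2) (Fin 2) F) (v : Fin 2 → F) :
    (M.map φ) *ᵥ (φ ∘ v) = φ ∘ (M *ᵥ v) := by
  funext i
  rw [mulVec_apply_two]
  simp only [Function.comp_apply, Matrix.map_apply]
  rw [mulVec_apply_two, map_add, map_mul, map_mul]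

theorem crs_comp (v u : Fin 2 → F) : crs (φ ∘ v) (φ ∘ u) = φ (crs v u) := by
  unfold crs
  simp only [Function.comp_apply, map_sub, map_mul]

theorem comp_ne_zero {v : Fin 2 → F} (hv : v ≠ 0) : φ ∘ v ≠ 0 := by
  intro h
  apply hv
  funext i
  have := congrFun h i
  simp only [Function.comp_apply, Pi.zero_apply] at this
  exact (map_eq_zero φ).mp this

/-- An `F`-rational vector which is an eigenvector over `K` is an eigenvector over `F`. -/
theorem isEig_of_map {M : Matrix (Fin 2) (Fin 2) F} {v : Fin 2 → F} (hv : v ≠ 0)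
    (h : IsEig (M.map φ) (φ ∘ v)) : IsEig M v := by
  rw [isEig_iff_crs hv]
  rw [isEig_iff_crs (comp_ne_zero φ hv), map_mulVec_comp, crs_comp] at h
  exact (map_eq_zero φ).mp h

theorem isEig_map {M : Matrix (Fin 2) (Fin 2) F} {v : Fin 2 → F}
    (h : IsEig M v) : IsEig (M.map φ) (φ ∘ v) := by
  obtain ⟨a, ha⟩ := h
  refine ⟨φ a, ?_⟩
  rw [map_mulVec_comp, ha]
  funext i
  simp only [Function.comp_apply, Pi.smul_apply, smul_eq_mul, map_mul]

theorem map_eq_one_iff (M : Matrix (Fin 2) (Fin 2) F) : M.map φ = 1 ↔ M = 1 := by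
  constructor
  · intro h
    have h1 : M.map φ = (1 : Matrix (Fin 2) (Fin 2) F).map φ := by
      rw [h, Matrix.map_one _ (map_zero φ) (map_one φ)]
    exact Matrix.map_injective φ.injective h1
  · rintro rfl
    exact Matrix.map_one _ (map_zero φ) (map_one φ)

end Map

end Fermat.Agent.S59.H405
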