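import Mathlib
import Fermat.Agent.S55.Bridge.Level

/-!
# S59 / G-TW (helper405): an open subgroup of index `2` of `G_ℚ` is the stabiliser of `√d`

* `exists_anti` : an element `α ≠ 0` with `σ α = α` on `G'` and `σ α = -α` off `G'`;
* `exists_sqrt_of_index_two` : a squarefree integer `d ≠ 1` and `β` with `β² = d` with the same
  property.
-/

set_option autoImplicit false

namespace Fermat.Agent.S59.H405

open Fermat.Agent.S55.Bridge

attribute [local instance] isAlgebraic_Qbar isGalois_Qbar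

/-- `ℚ̄` -/
abbrev QbT : Type := AlgebraicClosure ℚ

/-- `Gal(ℚ̄/ℚ)` -/
abbrev GQT : Type := AlgebraicClosure ℚ ≃ₐ[ℚ] AlgebraicClosure ℚ

/-- `β` is fixed by `G'` and negated by the complement of `G'`. -/
def IsAnti (G' : Subgroup GQT) (β : QbT) : Prop :=
  ∀ σ : GQT, (σ ∈ G' → σ β = β) ∧ (σ ∉ G' → σ β = -β)

theorem IsAnti.smul_rat {G' : Subgroup GQT} {β : QbT} (h : IsAnti G' β) (t : ℚ) :
    IsAnti G' (algebraMap ℚ QbT t * β) := by
  intro σ
  constructor
  · intro hσ
    rw [map_mul, (h σ).1 hσ, AlgEquiv.commutes]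
  · intro hσ
    rw [map_mul, (h σ).2 hσ, AlgEquiv.commutes, mul_neg]

/-- the square of an anti-invariant element is rational -/
theorem IsAnti.sq_rat {G' : Subgroup GQT} {β : QbT} (h : IsAnti G' β) :
    ∃ r : ℚ, algebraMap ℚ QbT r = β ^ 2 := by
  have hfix : ∀ f : GQT, f (β ^ 2) = β ^ 2 := by
    intro f
    by_cases hf : f ∈ G'
    · rw [map_pow, (h f).1 hf]
    · rw [map_pow, (h f).2 hf, neg_sq]
  exact (InfiniteGalois.mem_range_algebraMap_iff_fixed (k := ℚ) (K := QbT) (β ^ 2)).mpr hfix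

/-- a quotient of anti-invariant elements is rational -/
theorem IsAnti.div_rat {G' : Subgroup GQT} {β y : QbT} (h : IsAnti G' β) (hy : IsAnti G' y)
    (hβ : β ≠ 0) : ∃ t : ℚ, y = algebraMap ℚ QbT t * β := by
  have hfix : ∀ f : GQT, f (y / β) = y / β := by
    intro f
    by_cases hf : f ∈ G'
    · rw [map_div₀, (h f).1 hf, (hy f).1 hf]
    · rw [map_div₀, (h f).2 hf, (hy f).2 hf, neg_div_neg_eq]
  obtain ⟨t, ht⟩ :=
    (InfiniteGalois.mem_range_algebraMap_iff_fixed (k := ℚ) (K := QbT) (y / β)).mpr hfix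
  exact ⟨t, by rw [ht, div_mul_cancel₀ _ hβ]⟩

section Open

variable (G' : Subgroup GQT)

theorem exists_fixed_not_rat (hG' : G'.index = 2) (hopen : IsOpen (G' : Set GQT)) :
    ∃ x : QbT, (∀ σ ∈ G', σ x = x) ∧ ∃ g : GQT, g x ≠ x := by
  by_contra hcon
  push_neg at hcon
  have hclosed : IsClosed (G' : Set GQT) := Subgroup.isClosed_of_isOpen G' hopen
  let H : ClosedSubgroup GQT := ⟨G', hclosed⟩
  have h1 : (IntermediateField.fixedField H.toSubgroup).fixingSubgroup = G' :=
    InfiniteGalois.fixingSubgroup_fixedField H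
  have h2 : IntermediateField.fixedField H.toSubgroup = ⊥ := by
    rw [eq_bot_iff]
    intro x hx
    rw [IntermediateField.mem_fixedField_iff] at hx
    exact (InfiniteGalois.mem_bot_iff_fixed (k := ℚ) (K := QbT) x).mpr (hcon x hx)
  rw [h2, IntermediateField.fixingSubgroup_bot] at h1
  rw [← h1, Subgroup.index_top] at hG'
  omega

/-- the fixed field of a normal subgroup is stable under the whole group -/
theorem fixed_apply (hnorm : G'.Normal) {x : QbT} (hx : ∀ σ ∈ G', σ x = x) (g : GQT) :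
    ∀ σ ∈ G', σ (g x) = g x := by
  intro σ hσ
  have h1 : g⁻¹ * σ * g ∈ G' := by
    have := hnorm.conj_mem σ hσ g⁻¹
    rwa [inv_inv] at this
  have h2 : σ * g = g * (g⁻¹ * σ * g) := by group
  calc σ (g x) = (σ * g) x := rfl
    _ = (g * (g⁻¹ * σ * g)) x := by rw [h2]
    _ = g ((g⁻¹ * σ * g) x) := rfl
    _ = g x := by rw [hx _ h1]

/-- two elements outside a subgroup of index `2` act in the same way on its fixed field -/
theorem apply_eq_of_not_mem (hG' : G'.index = 2) {x : QbT} (hx : ∀ σ ∈ G', σ x = x)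
    {g σ : GQT} (hg : g ∉ G') (hσ : σ ∉ G') : σ x = g x := by
  have hinv : g⁻¹ ∉ G' := fun h => hg (by simpa using G'.inv_mem h)
  have h1 : g⁻¹ * σ ∈ G' :=
    (Subgroup.mul_mem_iff_of_index_two hG').mpr (iff_of_false hinv hσ)
  have h2 : σ = g * (g⁻¹ * σ) := by group
  calc σ x = (g * (g⁻¹ * σ)) x := by rw [← h2]
    _ = g ((g⁻¹ * σ) x) := rfl
    _ = g x := by rw [hx _ h1]

/-- an element outside a subgroup of index `2` acts as an involution on its fixed field -/
theorem apply_apply_of_fixed (hG' : G'.index = 2) {x : QbT} (hx : ∀ σ ∈ G', σ x = x)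
    (g : GQT) : g (g x) = x :=
  hx _ (Subgroup.mul_self_mem_of_index_two hG' g)

/-- `x - g x` is anti-invariant for `x` in the fixed field and `g ∉ G'` -/
theorem isAnti_sub (hG' : G'.index = 2) {x : QbT} (hx : ∀ σ ∈ G', σ x = x)
    {g : GQT} (hg : g ∉ G') : IsAnti G' (x - g x) := by
  have hnorm : G'.Normal := Subgroup.normal_of_index_eq_two hG'
  have hfix := fixed_apply G' hnorm hx g
  intro σ
  constructor
  · intro hσ
    rw [map_sub, hx σ hσ, hfix σ hσ]
  · intro hσ
    rw [map_sub, apply_eq_of_not_mem G' hG' hx hg hσ, apply_eq_of_not_mem G' hG' hfix hg hσ,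
      apply_apply_of_fixed G' hG' hx g]
    ring

/-- An open subgroup of index `2` is the stabiliser of an element `α ≠ 0` which is negated by
the complement. -/
theorem exists_anti (hG' : G'.index = 2) (hopen : IsOpen (G' : Set GQT)) :
    ∃ α : QbT, α ≠ 0 ∧ IsAnti G' α := by
  obtain ⟨x, hx, g, hg⟩ := exists_fixed_not_rat G' hG' hopen
  have hgG : g ∉ G' := fun h => hg (hx g h)
  exact ⟨x - g x, fun h => hg (sub_eq_zero.mp h).symm, isAnti_sub G' hG' hx hgG⟩

end Open

end Fermat.Agent.S59.H405
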