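import Fermat.Agent.S59.H405.TWQuadA

/-!
# S59 / G-TW (helper405): normalisation to a squarefree integer

`exists_sqrt_of_index_two` : an open subgroup `G'` of index `2` of `G_ℚ` has an anti-invariant
`β ≠ 0` with `β² = d`, `d ≠ 1` a squarefree integer.
-/

set_option autoImplicit false

namespace Fermat.Agent.S59.H405

/-- every nonzero rational is a squarefree integer times a nonzero rational square -/
theorem exists_squarefree_mul_sq (r : ℚ) (hr : r ≠ 0) :
    ∃ (d : ℤ) (t : ℚ), Squarefree d ∧ t ≠ 0 ∧ (d : ℚ) = t ^ 2 * r := by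
  set N : ℤ := r.num * r.den with hN
  have hnum : r.num ≠ 0 := Rat.num_ne_zero.mpr hr
  have hden : (r.den : ℤ) ≠ 0 := by exact_mod_cast r.den_ne_zero
  have hN0 : N ≠ 0 := mul_ne_zero hnum hden
  obtain ⟨a, b, hab, ha⟩ := Nat.sq_mul_squarefree N.natAbs
  have hb0 : b ≠ 0 := by
    rintro rfl
    rw [zero_pow (by norm_num), zero_mul] at hab
    exact hN0 (Int.natAbs_eq_zero.mp hab.symm)
  have hNd : N = (N.sign * a) * (b : ℤ) ^ 2 := by
    have h1 : (N.natAbs : ℤ) = (b : ℤ) ^ 2 * a := by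
      rw [← hab]; push_cast; ring
    calc N = N.sign * N.natAbs := (Int.sign_mul_natAbs N).symm
      _ = N.sign * ((b : ℤ) ^ 2 * a) := by rw [h1]
      _ = (N.sign * a) * (b : ℤ) ^ 2 := by ring
  have hsq : Squarefree (N.sign * (a : ℤ)) := by
    rw [← Int.squarefree_natAbs, Int.natAbs_mul, Int.natAbs_sign_of_ne_zero hN0, one_mul,
      Int.natAbs_natCast]
    exact ha
  refine ⟨N.sign * a, (r.den : ℚ) / b, hsq, ?_, ?_⟩
  · have h1 : (r.den : ℚ) ≠ 0 := by exact_mod_cast r.den_ne_zero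
    have h2 : (b : ℚ) ≠ 0 := by exact_mod_cast hb0
    exact div_ne_zero h1 h2
  · have h2 : (b : ℚ) ≠ 0 := by exact_mod_cast hb0
    have h3 : (N : ℚ) = r * (r.den : ℚ) ^ 2 := by
      rw [hN]
      push_cast
      have := Rat.mul_den_eq_num r
      rw [← this]
      ring
    have h4 : (N : ℚ) = ((N.sign * a : ℤ) : ℚ) * (b : ℚ) ^ 2 := by
      conv_lhs => rw [hNd]
      push_cast
      ring
    field_simp
    rw [← h4, h3]
    ring

section Open

variable (G' : Subgroup GQT)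

/-- An open subgroup of index `2` of `G_ℚ` is the stabiliser of a square root of a squarefree
integer `d ≠ 1`. -/
theorem exists_sqrt_of_index_two (hG' : G'.index = 2) (hopen : IsOpen (G' : Set GQT)) :
    ∃ (d : ℤ) (β : QbT), Squarefree d ∧ d ≠ 1 ∧ β ^ 2 = (d : QbT) ∧ β ≠ 0 ∧ IsAnti G' β := by
  obtain ⟨α, hα0, hα⟩ := exists_anti G' hG' hopen
  obtain ⟨r, hr⟩ := hα.sq_rat
  have hr0 : r ≠ 0 := by
    rintro rfl
    rw [map_zero] at hr
    exact hα0 (pow_eq_zero_iff (by norm_num) |>.mp hr.symm)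
  obtain ⟨d, t, hd, ht, hdt⟩ := exists_squarefree_mul_sq r hr0
  have hβ0 : algebraMap ℚ QbT t * α ≠ 0 :=
    mul_ne_zero ((map_ne_zero _).mpr ht) hα0
  have hβ2 : (algebraMap ℚ QbT t * α) ^ 2 = (d : QbT) := by
    rw [mul_pow, ← hr, ← map_pow, ← map_mul, ← hdt]
    simp
  refine ⟨d, algebraMap ℚ QbT t * α, hd, ?_, hβ2, hβ0, hα.smul_rat t⟩
  rintro rfl
  -- `β² = 1` forces `β = ± 1`, which is fixed by every automorphism
  have hne : G' ≠ ⊤ := by
    intro h
    rw [h, Subgroup.index_top] at hG'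
    omega
  obtain ⟨g, hg⟩ : ∃ g : GQT, g ∉ G' := by
    by_contra h
    push_neg at h
    exact hne ((Subgroup.eq_top_iff' G').mpr h)
  have h1 := ((hα.smul_rat t) g).2 hg
  have h2 : algebraMap ℚ QbT t * α = 1 ∨ algebraMap ℚ QbT t * α = -1 := by
    have : (algebraMap ℚ QbT t * α) ^ 2 = 1 ^ 2 := by rw [hβ2]; simp
    exact sq_eq_sq_iff_eq_or_eq_neg.mp this
  have h3 : g (algebraMap ℚ QbT t * α) = algebraMap ℚ QbT t * α := by
    rcases h2 with h | h
    · rw [h, map_one]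
    · rw [h, map_neg, map_one]
  rw [h3] at h1
  have h4 : (2 : QbT) * (algebraMap ℚ QbT t * α) = 0 := by linear_combination h1
  rcases mul_eq_zero.mp h4 with h | h
  · exact two_ne_zero h
  · exact hβ0 h

end Open

end Fermat.Agent.S59.H405
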