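import Fermat.Agent.S59.H405.TWQuadB
import Fermat.Agent.S59.H247.TFLift

/-!
# S59 / G-TW (helper405): ramification of quadratic fields

`G' ≤ G_ℚ` of index `2`, stabiliser of `β` with `β² = d`, `d` squarefree.  If `G'` contains the
inertia groups of all places over the prime `q`, then `q ∤ d`, and `d ≢ 3 mod 4` if `q = 2`.

Proof: `N` := fixed field of `G'`, `g ∉ G'`.  If `q ∣ d` (or `q = 2`, `d ≡ 3 mod 4`) then
`g x - x ∈ 𝔪_A` for every algebraic integer `x ∈ N`, so `g|_N` lifts to an inertia element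
(`H247.exists_mem_inertia_restrict_eq_of_integral`), which lies in `G'` — but `g β = -β`.
-/

set_option autoImplicit false

namespace Fermat.Agent.S59.H405

open Fermat.Agent.S55.Bridge

attribute [local instance] isAlgebraic_Qbar isGalois_Qbar

section Rat

/-- a rational number which is an algebraic integer of `ℚ̄` is an integer -/
theorem exists_int_of_isIntegral (t : ℚ) (h : IsIntegral ℤ (algebraMap ℚ QbT t)) :
    ∃ m : ℤ, t = m := by
  have h1 : IsIntegral ℤ t :=
    (isIntegral_algebraMap_iff (algebraMap ℚ QbT).injective).mp h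
  obtain ⟨m, hm⟩ := (IsIntegrallyClosed.isIntegral_iff (R := ℤ) (K := ℚ)).mp h1
  exact ⟨m, by rw [← hm]; rfl⟩

/-- if `t² d` is an integer and `d` is squarefree, then `t` is an integer -/
theorem exists_int_of_sq_mul (t : ℚ) (d m : ℤ) (hd : Squarefree d)
    (h : t ^ 2 * d = m) : ∃ s : ℤ, t = s := by
  have hden : (t.den : ℚ) ≠ 0 := by exact_mod_cast t.den_ne_zero
  have h1 : (t.num : ℚ) ^ 2 * d = m * (t.den : ℚ) ^ 2 := by
    have ht : t = t.num / t.den := (Rat.num_div_den t).symm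
    rw [ht] at h
    field_simp at h
    linear_combination h
  have h2 : t.num ^ 2 * d = m * (t.den : ℤ) ^ 2 := by exact_mod_cast h1
  have hcop : IsCoprime ((t.den : ℤ) ^ 2) (t.num ^ 2) := by
    apply IsCoprime.pow
    rw [Int.isCoprime_iff_gcd_eq_one]
    have := t.reduced
    rw [Nat.coprime_comm] at this
    simpa [Int.gcd, Nat.Coprime] using this
  have hdvd : (t.den : ℤ) ^ 2 ∣ d := by
    apply hcop.dvd_of_dvd_mul_left
    exact ⟨m, by rw [h2]; ring⟩
  have hunit : IsUnit (t.den : ℤ) := hd _ (by rw [← pow_two]; exact hdvd)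
  have hden1 : t.den = 1 := by
    have := Int.isUnit_iff.mp hunit
    rcases this with h | h
    · exact_mod_cast h
    · have : (0 : ℤ) ≤ t.den := by positivity
      omega
  exact ⟨t.num, by
    have := Rat.num_div_den t
    rw [hden1] at this
    rw [← this]
    simp⟩

end Rat

section Val

variable {A : ValuationSubring QbT}

theorem mem_nonunits_of_sq (y : QbT) (h : y ^ 2 ∈ A.nonunits) : y ∈ A.nonunits := by
  rw [ValuationSubring.mem_nonunits_iff] at h ⊢
  rw [map_pow] at h
  by_contra hcon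
  rw [not_lt] at hcon
  have : (1 : _) ≤ A.valuation y ^ 2 := one_le_pow₀ hcon
  exact absurd h (not_lt.mpr this)

theorem intCast_mul_mem_nonunits {q : ℕ} (hA : A.LiesOverPrime q) (m : ℤ) {z : QbT}
    (hz : z ∈ A) : ((q : ℤ) * m : ℤ) * z ∈ A.nonunits := by
  rw [ValuationSubring.mem_nonunits_iff]
  have hq : A.valuation (q : QbT) < 1 := (A.mem_nonunits_iff).mp hA
  have hm : A.valuation (m : QbT) ≤ 1 :=
    (A.valuation_le_one_iff _).mpr (intCast_mem A m)
  have hz' : A.valuation z ≤ 1 := (A.valuation_le_one_iff _).mpr hz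
  push_cast
  rw [map_mul, map_mul]
  calc A.valuation (q : QbT) * A.valuation (m : QbT) * A.valuation z
      ≤ A.valuation (q : QbT) * 1 * 1 := by gcongr
    _ < 1 := by rw [mul_one, mul_one]; exact hq

end Val

section Ram

variable (G' : Subgroup GQT)

/-- **The key estimate**: if `q ∣ d`, or `q = 2` and `d ≡ 3 mod 4`, an element `g ∉ G'` moves
every algebraic integer of the fixed field of `G'` by an element of the maximal ideal. -/
theorem sub_mem_nonunits (hG' : G'.index = 2) {d : ℤ} {β : QbT} (hd : Squarefree d)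
    (hβ2 : β ^ 2 = (d : QbT)) (hβ0 : β ≠ 0) (hβ : IsAnti G' β)
    {q : ℕ} (hqd : (q : ℤ) ∣ d ∨ (q = 2 ∧ d % 4 = 3))
    {A : ValuationSubring QbT} (hA : A.LiesOverPrime q)
    {g : GQT} (hg : g ∉ G') {x : QbT} (hx : ∀ σ ∈ G', σ x = x) (hxi : IsIntegral ℤ x) :
    g x - x ∈ A.nonunits := by
  have hnorm : G'.Normal := Subgroup.normal_of_index_eq_two hG'
  have hgx : ∀ σ ∈ G', σ (g x) = g x := fixed_apply G' hnorm hx g
  have hgxi : IsIntegral ℤ (g x) := hxi.map g
  -- `y = g x - x = t β` with `t` rational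
  have hy : IsAnti G' (x - g x) := isAnti_sub G' hG' hx hg
  obtain ⟨t, ht⟩ := hβ.div_rat hy hβ0
  have hyi : IsIntegral ℤ (x - g x) := hxi.sub hgxi
  -- `t² d` is an integer
  have hsq : algebraMap ℚ QbT (t ^ 2 * d) = (x - g x) ^ 2 := by
    rw [ht, mul_pow, hβ2, map_mul, map_pow]
    simp
  obtain ⟨m, hm⟩ := exists_int_of_isIntegral (t ^ 2 * d) (by rw [hsq]; exact hyi.pow 2)
  obtain ⟨s, hs⟩ := exists_int_of_sq_mul t d m hd hm
  have hβi : IsIntegral ℤ β := by
    refine IsIntegral.of_pow (n := 2) (by norm_num) ?_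
    rw [hβ2]
    have h := isIntegral_algebraMap (R := ℤ) (A := QbT) (x := d)
    rwa [eq_intCast] at h
  have hβA : β ∈ A := Fermat.Agent.S54.isIntegral_mem_valuationSubring A hβi
  have hneg : g x - x = -(x - g x) := by ring
  rcases hqd with hqd | ⟨hq2, hd4⟩
  · -- `q ∣ d`: `y² = s² d ∈ q ℤ̄`
    obtain ⟨e, he⟩ := hqd
    have h1 : (g x - x) ^ 2 = (((q : ℤ) * (e * s ^ 2) : ℤ) : QbT) * 1 := by
      rw [hneg, neg_sq, ← hsq, hs, he]
      push_cast
      simp only [map_mul, map_pow, map_intCast, map_natCast, eq_intCast]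
      ring
    apply mem_nonunits_of_sq
    rw [h1]
    exact intCast_mul_mem_nonunits hA _ A.one_mem
  · -- `q = 2`, `d ≡ 3 mod 4`: `s` is even
    subst hq2
    -- trace and norm are integers
    have hT : ∀ f : GQT, f (x + g x) = x + g x := by
      intro f
      by_cases hf : f ∈ G'
      · rw [map_add, hx f hf, hgx f hf]
      · rw [map_add, apply_eq_of_not_mem G' hG' hx hg hf,
          apply_eq_of_not_mem G' hG' hgx hg hf, apply_apply_of_fixed G' hG' hx g]
        ring
    have hP : ∀ f : GQT, f (x * g x) = x * g x := by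
      intro f
      by_cases hf : f ∈ G'
      · rw [map_mul, hx f hf, hgx f hf]
      · rw [map_mul, apply_eq_of_not_mem G' hG' hx hg hf,
          apply_eq_of_not_mem G' hG' hgx hg hf, apply_apply_of_fixed G' hG' hx g]
        ring
    obtain ⟨T, hT'⟩ :=
      (InfiniteGalois.mem_range_algebraMap_iff_fixed (k := ℚ) (K := QbT) (x + g x)).mpr hT
    obtain ⟨P, hP'⟩ :=
      (InfiniteGalois.mem_range_algebraMap_iff_fixed (k := ℚ) (K := QbT) (x * g x)).mpr hP
    obtain ⟨Tz, hTz⟩ := exists_int_of_isIntegral T (by rw [hT']; exact hxi.add hgxi)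
    obtain ⟨Pz, hPz⟩ := exists_int_of_isIntegral P (by rw [hP']; exact hxi.mul hgxi)
    have hrel : (s : ℚ) ^ 2 * d = (Tz : ℚ) ^ 2 - 4 * Pz := by
      apply (algebraMap ℚ QbT).injective
      rw [← hs, hsq, ← hTz, ← hPz, map_sub, map_mul, map_pow, hT', hP']
      simp only [map_ofNat]
      ring
    have hrelZ : s ^ 2 * d = Tz ^ 2 - 4 * Pz := by exact_mod_cast hrel
    have hseven : (2 : ℤ) ∣ s := by
      by_contra hodd
      have hs1 : s % 2 = 1 := by omega
      obtain ⟨k, hk⟩ : ∃ k, s = 2 * k + 1 := ⟨s / 2, by omega⟩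
      have hs2 : s ^ 2 = 4 * (k * k + k) + 1 := by rw [hk]; ring
      rw [hs2] at hrelZ
      have hX : (4 * (k * k + k) + 1) * d = 4 * ((k * k + k) * d) + d := by ring
      rw [hX] at hrelZ
      rcases Int.emod_two_eq_zero_or_one Tz with h0 | h1
      · obtain ⟨l, hl⟩ : ∃ l, Tz = 2 * l := ⟨Tz / 2, by omega⟩
        have hT2 : Tz ^ 2 = 4 * (l * l) := by rw [hl]; ring
        rw [hT2] at hrelZ
        omega
      · obtain ⟨l, hl⟩ : ∃ l, Tz = 2 * l + 1 := ⟨Tz / 2, by omega⟩
        have hT2 : Tz ^ 2 = 4 * (l * l + l) + 1 := by rw [hl]; ring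
        rw [hT2] at hrelZ
        omega
    obtain ⟨k, hk⟩ := hseven
    have h1 : g x - x = ((((2 : ℕ) : ℤ) * (-k) : ℤ) : QbT) * β := by
      rw [hneg, ht, hs, hk]
      push_cast
      simp only [map_mul, map_intCast, map_ofNat, eq_intCast]
      ring
    rw [h1]
    exact intCast_mul_mem_nonunits hA _ hβA

/-- **Ramification of `ℚ(√d)`.**  If `G'` contains the inertia groups of all places over `q`,
then `q ∤ d`, and `d ≢ 3 mod 4` if `q = 2`. -/
theorem not_dvd_of_inertia_le (hG' : G'.index = 2) {d : ℤ} {β : QbT} (hd : Squarefree d)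
    (hβ2 : β ^ 2 = (d : QbT)) (hβ0 : β ≠ 0) (hβ : IsAnti G' β)
    {q : ℕ} (hq : q.Prime)
    (hunr : ∀ A : ValuationSubring QbT, A.LiesOverPrime q →
      ∀ σ ∈ A.inertiaSubgroupIn ℚ, σ ∈ G') :
    ¬ ((q : ℤ) ∣ d ∨ (q = 2 ∧ d % 4 = 3)) := by
  intro hqd
  obtain ⟨A, hA⟩ := Fermat.Agent.S54.exists_valuationSubring_liesOver q hq
  have hne : G' ≠ ⊤ := by
    intro h
    rw [h, Subgroup.index_top] at hG'
    omega
  obtain ⟨g, hg⟩ : ∃ g : GQT, g ∉ G' := by
    by_contra h
    push_neg at h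
    exact hne ((Subgroup.eq_top_iff' G').mpr h)
  have hginv : g⁻¹ ∉ G' := fun h => hg (by simpa using G'.inv_mem h)
  have hnorm : G'.Normal := Subgroup.normal_of_index_eq_two hG'
  let N : IntermediateField ℚ QbT := IntermediateField.fixedField G'
  have hN : ∀ x, x ∈ N ↔ ∀ σ ∈ G', σ x = x := fun x => by
    show x ∈ IntermediateField.fixedField G' ↔ _
    rw [IntermediateField.mem_fixedField_iff]
  obtain ⟨σ', hσ'I, hσ'⟩ := Fermat.Agent.S59.H247.exists_mem_inertia_restrict_eq_of_integral N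
    hq hA g
    (fun x hx => (hN _).mpr (fixed_apply G' hnorm ((hN x).mp hx) g))
    (fun x hx => (hN _).mpr (fixed_apply G' hnorm ((hN x).mp hx) g⁻¹))
    (fun x hx hxi => sub_mem_nonunits G' hG' hd hβ2 hβ0 hβ hqd hA hg ((hN x).mp hx) hxi)
  have hβN : β ∈ N := (hN β).mpr (fun σ hσ => (hβ σ).1 hσ)
  have h1 : σ' β = β := (hβ σ').1 (hunr A hA σ' hσ'I)
  have h2 : σ' β = -β := by rw [hσ' β hβN]; exact (hβ g).2 hg
  have h3 : (2 : QbT) * β = 0 := by
    have := h1.symm.trans h2
    linear_combination this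
  rcases mul_eq_zero.mp h3 with h | h
  · exact two_ne_zero h
  · exact hβ0 h

end Ram

end Fermat.Agent.S59.H405
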