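import Fermat.Agent.S59.H405.TWQuadC
import Fermat.Agent.S59.G4.H178.Involution

/-!
# S59 / G-TW (helper405): the only quadratic field unramified outside `p` is `ℚ(√p*)`

* `pstar p`            : `p* = ± p ≡ 1 mod 4`;
* `sqrtPstar p`        : a square root of `p*` in `ℚ̄`;
* `stabQ β`            : the stabiliser of `β` in `G_ℚ`;
* `index_two_eq_stab`  : an open subgroup of index `2` of `G_ℚ` containing all inertia groups at
  the primes `q ≠ p` (`p` odd) is the stabiliser of `√p*`;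
* `involution_mem_stab_five` : every involution `c ≠ 1` of `ℚ̄` fixes `√5`.
-/

set_option autoImplicit false

namespace Fermat.Agent.S59.H405

/-- the possible squarefree `d`: `d = ± p`, `d ≡ 1 mod 4` -/
theorem eq_or_eq_neg_of_forall_not_dvd {p : ℕ} (hp2 : p ≠ 2) {d : ℤ}
    (hd : Squarefree d) (hd1 : d ≠ 1)
    (h : ∀ q : ℕ, q.Prime → q ≠ p → ¬ ((q : ℤ) ∣ d ∨ (q = 2 ∧ d % 4 = 3))) :
    (d = p ∨ d = -p) ∧ d % 4 = 1 := by
  have h2 := h 2 Nat.prime_two (fun h => hp2 h.symm)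
  push_neg at h2
  have hodd : ¬ (2 : ℤ) ∣ d := by
    have := h2.1
    simpa using this
  have h43 : d % 4 ≠ 3 := h2.2 rfl
  have h4 : d % 4 = 1 := by omega
  refine ⟨?_, h4⟩
  have hn : Squarefree d.natAbs := Int.squarefree_natAbs.mpr hd
  have hprime : ∀ q : ℕ, q.Prime → q ∣ d.natAbs → q = p := by
    intro q hq hqd
    by_contra hne
    exact h q hq hne (Or.inl (Int.natCast_dvd.mpr hqd))
  have hn1 : d.natAbs ≠ 1 := by
    intro h1
    rcases Int.natAbs_eq d with h | h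
    · rw [h1] at h
      exact hd1 (by simpa using h)
    · rw [h1] at h
      rw [h] at h4
      norm_num at h4
  obtain ⟨q, hq, hqd⟩ := Nat.exists_prime_and_dvd hn1
  have hqp := hprime q hq hqd
  subst hqp
  obtain ⟨k, hk⟩ := hqd
  have hk1 : k = 1 := by
    by_contra hk1
    obtain ⟨q', hq', hq'k⟩ := Nat.exists_prime_and_dvd hk1
    have hq'q := hprime q' hq' (by rw [hk]; exact dvd_mul_of_dvd_right hq'k q)
    subst hq'q
    have hsq : q' * q' ∣ d.natAbs := by
      rw [hk]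
      exact mul_dvd_mul_left q' hq'k
    have := hn q' hsq
    exact hq'.one_lt.ne' (Nat.isUnit_iff.mp this)
  rw [hk1, mul_one] at hk
  rcases Int.natAbs_eq d with h | h
  · left; rw [h, hk]
  · right; rw [h, hk]

/-- `p* = ± p ≡ 1 mod 4` -/
def pstar (p : ℕ) : ℤ := if p % 4 = 1 then (p : ℤ) else -(p : ℤ)

theorem eq_pstar {p : ℕ} {d : ℤ} (h : d = p ∨ d = -p) (h4 : d % 4 = 1) : d = pstar p := by
  unfold pstar
  rcases h with h | h
  · have : p % 4 = 1 := by omega
    rw [if_pos this, h]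
  · have : ¬ p % 4 = 1 := by omega
    rw [if_neg this, h]

theorem pstar_five : pstar 5 = 5 := by
  unfold pstar
  norm_num

theorem exists_sqrtPstar (p : ℕ) : ∃ s : QbT, s ^ 2 = (pstar p : QbT) :=
  IsAlgClosed.exists_pow_nat_eq (pstar p : QbT) (by norm_num)

/-- a square root of `p*` in `ℚ̄` -/
noncomputable def sqrtPstar (p : ℕ) : QbT := (exists_sqrtPstar p).choose

theorem sqrtPstar_sq (p : ℕ) : sqrtPstar p ^ 2 = (pstar p : QbT) := (exists_sqrtPstar p).choose_spec

/-- the stabiliser of `β` in `G_ℚ` -/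
def stabQ (β : QbT) : Subgroup GQT where
  carrier := {σ | σ β = β}
  one_mem' := rfl
  mul_mem' := by
    intro a b ha hb
    show a (b β) = β
    rw [Set.mem_setOf_eq] at ha hb
    rw [hb, ha]
  inv_mem' := by
    intro a ha
    rw [Set.mem_setOf_eq] at ha ⊢
    have h1 : a⁻¹ (a β) = β := by
      show (a⁻¹ * a) β = β
      rw [inv_mul_cancel]
      rfl
    rwa [ha] at h1

theorem mem_stabQ {β : QbT} {σ : GQT} : σ ∈ stabQ β ↔ σ β = β := Iff.rfl

theorem stabQ_neg (β : QbT) : stabQ (-β) = stabQ β := by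
  ext σ
  rw [mem_stabQ, mem_stabQ, map_neg, neg_inj]

section Main

open Fermat.Agent.S55.Bridge

attribute [local instance] isAlgebraic_Qbar isGalois_Qbar

/-- **The only quadratic field unramified outside the odd prime `p` is `ℚ(√p*)`.** -/
theorem index_two_eq_stab {p : ℕ} (hp2 : p ≠ 2) (G' : Subgroup GQT)
    (hG' : G'.index = 2) (hopen : IsOpen (G' : Set GQT))
    (hunr : ∀ q : ℕ, q.Prime → q ≠ p → ∀ A : ValuationSubring QbT, A.LiesOverPrime q →
      ∀ σ ∈ A.inertiaSubgroupIn ℚ, σ ∈ G') :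
    G' = stabQ (sqrtPstar p) := by
  obtain ⟨d, β, hd, hd1, hβ2, hβ0, hβ⟩ := exists_sqrt_of_index_two G' hG' hopen
  have hram : ∀ q : ℕ, q.Prime → q ≠ p → ¬ ((q : ℤ) ∣ d ∨ (q = 2 ∧ d % 4 = 3)) :=
    fun q hq hqp => not_dvd_of_inertia_le G' hG' hd hβ2 hβ0 hβ hq (hunr q hq hqp)
  obtain ⟨hdp, hd4⟩ := eq_or_eq_neg_of_forall_not_dvd hp2 hd hd1 hram
  have hdstar : d = pstar p := eq_pstar hdp hd4
  have hG : G' = stabQ β := by
    ext σ
    rw [mem_stabQ]
    constructor
    · exact (hβ σ).1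
    · intro h
      by_contra hσ
      have h1 := (hβ σ).2 hσ
      have h2 : (2 : QbT) * β = 0 := by
        have := h.symm.trans h1
        linear_combination this
      rcases mul_eq_zero.mp h2 with h | h
      · exact two_ne_zero h
      · exact hβ0 h
  have hsq : β ^ 2 = sqrtPstar p ^ 2 := by rw [hβ2, sqrtPstar_sq, hdstar]
  rcases sq_eq_sq_iff_eq_or_eq_neg.mp hsq with h | h
  · rw [hG, h]
  · rw [hG, h, stabQ_neg]

end Main

/-- Every involution `c ≠ 1` of `ℚ̄` fixes `√5`. -/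
theorem involution_mem_stab_five (c : GQT) (hc : c * c = 1) (hc1 : c ≠ 1) :
    c ∈ stabQ (sqrtPstar 5) := by
  rw [mem_stabQ]
  have hcc : ∀ x : QbT, (c : QbT ≃+* QbT) ((c : QbT ≃+* QbT) x) = x := by
    intro x
    have h := congrArg (fun f : GQT => f x) hc
    simpa [AlgEquiv.mul_apply] using h
  have hne : ∃ x : QbT, (c : QbT ≃+* QbT) x ≠ x := by
    by_contra h
    exact hc1 (AlgEquiv.ext fun x => not_not.mp (not_exists.mp h x))
  obtain ⟨w, hw, hw2⟩ := Fermat.Agent.S59.G4.H178.exists_fixed_sq_eq_add (K := QbT) two_ne_zero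
    (c : QbT ≃+* QbT) hcc hne 1 2 (map_one _) (map_ofNat (c : QbT ≃+* QbT) 2)
  have hsq : sqrtPstar 5 ^ 2 = w ^ 2 := by
    rw [sqrtPstar_sq, pstar_five, hw2]
    norm_num
  have hw' : c w = w := hw
  rcases sq_eq_sq_iff_eq_or_eq_neg.mp hsq with h | h
  · rw [h, hw']
  · rw [h, map_neg, hw']

end Fermat.Agent.S59.H405
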