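import Fermat.Agent.S59.H405.TWGroup
import Fermat.Agent.S59.H405.TWQuadD
import Fermat.Agent.S59.H405.TWConj
import Fermat.Agent.S53.DictSchur
import Fermat.Agent.S59.G4.H307.AbsIrr

/-!
# S59 / G-TW (helper405): the hypothesis `hTW` of S56 for residual representations over `𝔽_p`

`hTW_of_residual` : let `p ∈ {3, 5}` and let `ρ₀ : G_ℚ → GL₂(𝔽_p)` be odd, irreducible, with
unipotent inertia at every prime `q ≠ p`.  Then every base change of `ρ₀` stays irreducible on
every subgroup of index `2` of `G_ℚ` (over every extension field): this is the hypothesis `hTW`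
of the frozen statement S56.  No information on `ρ₀|_{I_p}` is used.
-/

set_option autoImplicit false

namespace Fermat.Agent.S59.H405

open Fermat.Agent.S53 Matrix

section Transport

variable {F : Type} [Field F]

/-- transport of the determinant along an equivalence with a matrix representation -/
theorem det_of_equiv {ρ₀ : ResidualGaloisRep F} {rb : S53.GQ →* S53.M2 F}
    {h : GaloisFactorsThroughFiniteLevel rb} (e : ResidualGaloisRep.Equiv ρ₀ (toRes rb h))
    (σ : S53.GQ) : (rb σ).det = LinearMap.det (ρ₀.ρ σ) := by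
  let f : ρ₀.V ≃ₗ[F] (Fin 2 → F) := e.toLinearEquiv
  have hf : ∀ x, f (ρ₀.ρ σ x) = (rb σ) *ᵥ (f x) := e.map_apply σ
  have h1 : ρ₀.ρ σ = (f.symm : (Fin 2 → F) →ₗ[F] ρ₀.V) ∘ₗ
      (Matrix.toLin' (rb σ)) ∘ₗ (f.symm.symm : ρ₀.V →ₗ[F] (Fin 2 → F)) := by
    apply LinearMap.ext
    intro x
    simp only [LinearMap.coe_comp, LinearEquiv.coe_coe, Function.comp_apply, Matrix.toLin'_apply,
      LinearEquiv.symm_symm]
    apply f.injective
    rw [LinearEquiv.apply_symm_apply]
    exact hf x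
  rw [h1, LinearMap.det_conj, LinearMap.det_toLin']

/-- transport of unipotency along an equivalence with a matrix representation -/
theorem unip_of_equiv {ρ₀ : ResidualGaloisRep F} {rb : S53.GQ →* S53.M2 F}
    {h : GaloisFactorsThroughFiniteLevel rb} (e : ResidualGaloisRep.Equiv ρ₀ (toRes rb h))
    (σ : S53.GQ) (hσ : (ρ₀.ρ σ - 1) * (ρ₀.ρ σ - 1) = 0) :
    (rb σ - 1) * (rb σ - 1) = 0 := by
  let f : ρ₀.V ≃ₗ[F] (Fin 2 → F) := e.toLinearEquiv
  have hf : ∀ x, f (ρ₀.ρ σ x) = (rb σ) *ᵥ (f x) := e.map_apply σ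
  apply mulVec_injective_M2
  intro y
  obtain ⟨x, rfl⟩ := f.surjective y
  have hstep : ∀ z : ρ₀.V, (rb σ - 1) *ᵥ (f z) = f ((ρ₀.ρ σ - 1) z) := by
    intro z
    rw [Matrix.sub_mulVec, Matrix.one_mulVec, LinearMap.sub_apply, map_sub]
    congr 1
    exact (hf z).symm
  rw [← Matrix.mulVec_mulVec, hstep, hstep, Matrix.zero_mulVec]
  have := congrArg (fun g : Module.End F ρ₀.V => g x) hσ
  simp only [Module.End.mul_apply, LinearMap.zero_apply] at this
  rw [this, map_zero]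

end Transport

/-- **G-TW for residual representations over `𝔽_p`, `p ∈ {3, 5}`.** -/
theorem hTW_of_residual (p : ℕ) [Fact p.Prime] (hp : p = 3 ∨ p = 5)
    (ρ₀ : ResidualGaloisRep (ZMod p)) (hodd : ρ₀.IsOdd) (hirr : ρ₀.IsIrreducible)
    (hunip : ∀ q : ℕ, q.Prime → q ≠ p → ∀ A : ValuationSubring (AlgebraicClosure ℚ),
      A.LiesOverPrime q → ∀ σ ∈ A.inertiaSubgroupIn ℚ, (ρ₀.ρ σ - 1) * (ρ₀.ρ σ - 1) = 0)
    (k : Type) [Field k] (ι : ZMod p →+* k) (ρbar : ResidualGaloisRep k)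
    (hρ : ρbar.IsEquiv (ρ₀.baseChangeAlong ι))
    (K : Type) [Field K] [Algebra k K]
    (G : Subgroup (AlgebraicClosure ℚ ≃ₐ[ℚ] AlgebraicClosure ℚ)) (hG : G.index = 2)
    (V : Submodule K (ρbar.baseChange K).V)
    (hV : ∀ σ ∈ G, ∀ x ∈ V, (ρbar.baseChange K).ρ σ x ∈ V) : V = ⊥ ∨ V = ⊤ := by
  have hp2 : p ≠ 2 := by rcases hp with h | h <;> omega
  -- matrix form
  obtain ⟨rb, hrb, ⟨e₀⟩⟩ := exists_toRes ρ₀
  obtain ⟨e₁⟩ := baseChangeAlong_toRes ι rb hrb
  obtain ⟨e₂⟩ := hρ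
  have E₁ : ResidualGaloisRep.Equiv ρbar (toRes (mapRep ι rb) (factors_mapRep ι hrb)) :=
    (e₂.trans (e₀.baseChangeAlong ι)).trans e₁
  obtain ⟨e₃⟩ := baseChange_toRes K (mapRep ι rb) (factors_mapRep ι hrb)
  have E : ResidualGaloisRep.Equiv (ρbar.baseChange K)
      (toRes (mapRep (algebraMap k K) (mapRep ι rb))
        (factors_mapRep (algebraMap k K) (factors_mapRep ι hrb))) :=
    (resEquivBaseChange K E₁).trans e₃
  set φ : ZMod p →+* K := (algebraMap k K).comp ι with hφ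
  let f : (ρbar.baseChange K).V ≃ₗ[K] (Fin 2 → K) := E.toLinearEquiv
  have hact : ∀ (σ : S53.GQ) (x : (ρbar.baseChange K).V),
      f ((ρbar.baseChange K).ρ σ x) = ((rb σ).map φ) *ᵥ (f x) := by
    intro σ x
    exact E.map_apply σ x
  by_contra hcon
  rw [not_or] at hcon
  obtain ⟨hbot, htop⟩ := hcon
  -- the transported line
  let W : Submodule K (Fin 2 → K) := V.map (f : (ρbar.baseChange K).V →ₗ[K] (Fin 2 → K))
  have hWbot : W ≠ ⊥ := by
    intro h
    apply hbot
    rw [Submodule.map_eq_bot_iff] at h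
    exact h
  have hWtop : W ≠ ⊤ := by
    intro h
    apply htop
    rw [eq_top_iff]
    intro x _
    have hx : f x ∈ W := by rw [h]; exact Submodule.mem_top
    obtain ⟨y, hy, hyx⟩ := hx
    have : y = x := f.injective hyx
    rwa [← this]
  have hWstab : ∀ σ ∈ G, ∀ w ∈ W, ((rb σ).map φ) *ᵥ w ∈ W := by
    rintro σ hσ w ⟨x, hx, rfl⟩
    refine ⟨(ρbar.baseChange K).ρ σ x, hV σ hσ x hx, ?_⟩
    exact hact σ x
  have h1 : 0 < Module.finrank K W := by
    haveI : Nontrivial W := (Submodule.nontrivial_iff_ne_bot).mpr hWbot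
    exact Module.finrank_pos
  have h2 : Module.finrank K W < Module.finrank K (Fin 2 → K) := Submodule.finrank_lt hWtop
  rw [Module.finrank_fin_fun] at h2
  have h3 : Module.finrank K W = 1 := by omega
  obtain ⟨w, hw, hall⟩ := finrank_eq_one_iff'.mp h3
  have hv0 : (w : Fin 2 → K) ≠ 0 := fun h0 => hw (Subtype.ext h0)
  have hline : ∀ σ ∈ G, IsEig ((rb σ).map φ) (w : Fin 2 → K) := by
    intro σ hσ
    obtain ⟨c, hc⟩ := hall ⟨((rb σ).map φ) *ᵥ (w : Fin 2 → K), hWstab σ hσ _ w.2⟩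
    exact ⟨c, (congrArg Subtype.val hc).symm⟩
  -- the inputs of `core`
  obtain ⟨c, hcc, hc1⟩ := exists_involution_Qbar
  have hdet : (rb c).det = -1 := by
    rw [det_of_equiv e₀ c]
    exact hodd c hcc hc1
  have hirr' : ¬ HasLine rb := by
    rintro ⟨v, hv, hE⟩
    have h4 : (toRes rb hrb).IsIrreducible := isIrreducible_of_equiv e₀ hirr
    exact (Fermat.Agent.S59.G4.H307.toRes_isIrreducible_iff rb hrb).mp h4 ⟨v, hv, fun σ => hE σ⟩
  refine core p hp rb c hcc hdet hirr' φ G hG (stabQ (sqrtPstar p)) ?_ ?_ (w : Fin 2 → K) hv0 hline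
  · intro h5
    subst h5
    exact involution_mem_stab_five c hcc hc1
  · intro htriv G' hG' hker
    obtain ⟨L, hL, hLker⟩ := hrb
    have := hL
    have hopen : IsOpen (G' : Set GQT) := by
      apply Subgroup.isOpen_mono (H₁ := L.fixingSubgroup) _ (IntermediateField.fixingSubgroup_isOpen L)
      intro σ hσ
      apply hker
      apply hLker
      intro x hx
      exact (IntermediateField.mem_fixingSubgroup_iff L σ).mp hσ x hx
    apply index_two_eq_stab hp2 G' hG' hopen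
    intro q hq hqp A hA σ hσ
    exact hker σ (htriv σ (unip_of_equiv e₀ σ (hunip q hq hqp A hA σ hσ)))

end Fermat.Agent.S59.H405
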